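import Mathlib

/-!
# Row LT, tower T7, leaf `T7.C7 = ExpSepC` (SPARE, helper496): the analytic core, Mathlib only

OFF-MAIN.  Linear independence of the characters `(b, λ) ↦ b^k λ^m` (`k ∈ ℤ`, `m ≥ m₀`) on
absolutely summable families of atoms with `|b| = 1` and `|λ| = 1` or `λ² / b > 0`.

Route (NO Stone--Weierstrass, no regrouping of the two families before the end):

1. `cesaro_isolate496`: Cesàro means isolate the atoms at `1` of a family in the closed unit
   disc (dominated convergence).  Applied in `k` it fixes `b = b₀`.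
2. With `ζ₀² = b₀` the atoms `μ = λ / ζ₀` lie on the unit circle or on the real axis.
   `family_core496` regroups the family by points.
3. `real_atom_zero496`: for masses `d p` at points of `{|p| ≤ r} ∪ ℝ` with vanishing moments
   the Cauchy transform `G(t) = ∑ d(p) / (1 - p t)` vanishes near `0`
   (`cauchyG496_eq_zero_near`, geometric series with remainder), is holomorphic on the star
   domain `{lowB496 r R > 0}` = the disc `|t| < 1/r` minus the real rays `|t| ≥ 1/R`
   (`differentiableOn_cauchyG496`), hence vanishes there (identity theorem); the vertical limit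
   `t = 1/p₀ + iε`, `ε → 0⁺`, of `(1 - p₀ t) G(t)` is the mass at the real point `p₀`, `|p₀| > r`.
4. `core496`: `r = 1` kills the real atoms outside the unit disc, Cesàro means kill the atoms on
   the unit circle, `r = |p₀| / 2` kills the remaining real atoms.
-/

set_option autoImplicit false

open Filter Topology

noncomputable section

namespace Fermat.Agent.LT.T7.ES496

/-! ## 1. Cesàro means isolate the atoms at `1` -/

/-- The Cesàro mean of the powers of `z`. -/
def cesaro496 (N : ℕ) (z : ℂ) : ℂ := (∑ k ∈ Finset.range N, z ^ k) / (N : ℂ)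

theorem cesaro496_one {N : ℕ} (hN : 0 < N) : cesaro496 N 1 = 1 := by
  unfold cesaro496
  simp only [one_pow, Finset.sum_const, Finset.card_range, nsmul_eq_mul, mul_one]
  exact div_self (Nat.cast_ne_zero.2 hN.ne')

theorem norm_cesaro496_le (N : ℕ) {z : ℂ} (hz : ‖z‖ ≤ 1) : ‖cesaro496 N z‖ ≤ 1 := by
  unfold cesaro496
  rcases Nat.eq_zero_or_pos N with h0 | hN
  · subst h0; simp
  rw [norm_div, Complex.norm_natCast]
  rw [div_le_one (by exact_mod_cast hN)]
  calc ‖∑ k ∈ Finset.range N, z ^ k‖ ≤ ∑ k ∈ Finset.range N, ‖z ^ k‖ := norm_sum_le _ _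
    _ ≤ ∑ _k ∈ Finset.range N, (1 : ℝ) := by
        apply Finset.sum_le_sum
        intro k _
        rw [norm_pow]
        exact pow_le_one₀ (norm_nonneg _) hz
    _ = N := by simp

theorem tendsto_cesaro496 {z : ℂ} (hz : ‖z‖ ≤ 1) (hz1 : z ≠ 1) :
    Tendsto (fun N : ℕ => cesaro496 N z) atTop (𝓝 0) := by
  have h1z : (1 : ℂ) - z ≠ 0 := sub_ne_zero.2 (Ne.symm hz1)
  have hbound : ∀ N : ℕ, ‖cesaro496 N z‖ ≤ (2 / ‖1 - z‖) * (1 / (N : ℝ)) := by
    intro N
    unfold cesaro496
    have hgeo : (∑ k ∈ Finset.range N, z ^ k) = (1 - z ^ N) / (1 - z) := by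
      rw [eq_div_iff h1z]
      have := mul_neg_geom_sum z N
      rw [mul_comm] at this
      rw [← this]
    rw [hgeo, norm_div, norm_div, Complex.norm_natCast]
    have h2 : ‖1 - z ^ N‖ ≤ 2 := by
      calc ‖1 - z ^ N‖ ≤ ‖(1 : ℂ)‖ + ‖z ^ N‖ := norm_sub_le _ _
        _ ≤ 1 + 1 := by
            rw [norm_one, norm_pow]
            exact add_le_add le_rfl (pow_le_one₀ (norm_nonneg _) hz)
        _ = 2 := by norm_num
    have hpos : 0 < ‖1 - z‖ := norm_pos_iff.2 h1z
    rw [div_mul_div_comm, mul_one, div_div]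
    apply div_le_div_of_nonneg_right h2
    exact mul_nonneg hpos.le (Nat.cast_nonneg _)
  have hlim : Tendsto (fun N : ℕ => (2 / ‖1 - z‖) * (1 / (N : ℝ))) atTop (𝓝 0) := by
    have := tendsto_one_div_atTop_nhds_zero_nat.const_mul (2 / ‖1 - z‖)
    simpa using this
  exact squeeze_zero_norm hbound hlim

/-- **Cesàro isolation.**  If `∑ e_i z_i^k = 0` for all `k`, `|z_i| ≤ 1`, then the total
coefficient of the indices with `z_i = 1` is zero. -/
theorem cesaro_isolate496 {I : Type*} (e : I → ℂ) (z : I → ℂ) (he : Summable fun i => ‖e i‖)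
    (hz : ∀ i, ‖z i‖ ≤ 1) (h : ∀ k : ℕ, ∑' i, e i * z i ^ k = 0) :
    ∑' i, (if z i = 1 then e i else 0) = 0 := by
  classical
  have hsum : ∀ k : ℕ, Summable fun i => e i * z i ^ k := by
    intro k
    refine Summable.of_norm_bounded he (fun i => ?_)
    rw [norm_mul, norm_pow]
    calc ‖e i‖ * ‖z i‖ ^ k ≤ ‖e i‖ * 1 :=
          mul_le_mul_of_nonneg_left (pow_le_one₀ (norm_nonneg _) (hz i)) (norm_nonneg _)
      _ = ‖e i‖ := mul_one _
  have hzero : ∀ N : ℕ, ∑' i, e i * cesaro496 N (z i) = 0 := by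
    intro N
    have h1 : ∀ i, e i * cesaro496 N (z i)
        = (∑ k ∈ Finset.range N, e i * z i ^ k) / (N : ℂ) := by
      intro i
      unfold cesaro496
      rw [mul_div_assoc', Finset.mul_sum]
    simp_rw [h1]
    rw [tsum_div_const, Summable.tsum_finsetSum (fun k _ => hsum k)]
    simp [h]
  have hlim : Tendsto (fun N : ℕ => ∑' i, e i * cesaro496 N (z i)) atTop
      (𝓝 (∑' i, (if z i = 1 then e i else 0))) := by
    refine tendsto_tsum_of_dominated_convergence (bound := fun i => ‖e i‖) he ?_ ?_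
    · intro i
      by_cases hi : z i = 1
      · rw [if_pos hi, hi]
        refine tendsto_const_nhds.congr' ?_
        filter_upwards [eventually_gt_atTop 0] with N hN
        rw [cesaro496_one hN, mul_one]
      · rw [if_neg hi]
        have := (tendsto_cesaro496 (hz i) hi).const_mul (e i)
        simpa using this
    · refine Eventually.of_forall fun N i => ?_
      rw [norm_mul]
      calc ‖e i‖ * ‖cesaro496 N (z i)‖ ≤ ‖e i‖ * 1 :=
            mul_le_mul_of_nonneg_left (norm_cesaro496_le N (hz i)) (norm_nonneg _)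
        _ = ‖e i‖ := mul_one _
  have hconst : Tendsto (fun N : ℕ => ∑' i, e i * cesaro496 N (z i)) atTop (𝓝 0) := by
    simp_rw [hzero]
    exact tendsto_const_nhds
  exact tendsto_nhds_unique hlim hconst


/-! ## 2. The Cauchy transform of an atomic measure -/

/-- The atoms lie in the closed disc of radius `r` or on the real axis, and in the closed disc
of radius `R`. -/
def Supp496 (d : ℂ → ℂ) (r R : ℝ) : Prop :=
  ∀ p, d p ≠ 0 → ‖p‖ ≤ R ∧ (‖p‖ ≤ r ∨ p.im = 0)

/-- A lower bound for `|1 - p t|`, uniform in the atoms `p`. -/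
def lowB496 (r R : ℝ) (t : ℂ) : ℝ := min (1 - r * ‖t‖) (max (r * |t.im|) (1 - R * ‖t‖))

theorem continuous_lowB496 (r R : ℝ) : Continuous (lowB496 r R) := by
  unfold lowB496
  fun_prop

theorem lowB496_le {d : ℂ → ℂ} {r R : ℝ} (hsupp : Supp496 d r R) {p : ℂ}
    (hp : d p ≠ 0) (t : ℂ) : lowB496 r R t ≤ ‖1 - p * t‖ := by
  obtain ⟨hpR, hcase⟩ := hsupp p hp
  have hbase : ∀ c : ℝ, ‖p‖ ≤ c → 1 - c * ‖t‖ ≤ ‖1 - p * t‖ := by
    intro c hc
    have h1 : ‖(1 : ℂ)‖ - ‖p * t‖ ≤ ‖1 - p * t‖ := norm_sub_norm_le _ _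
    rw [norm_one, norm_mul] at h1
    have h2 : ‖p‖ * ‖t‖ ≤ c * ‖t‖ := mul_le_mul_of_nonneg_right hc (norm_nonneg _)
    linarith
  by_cases hpr : ‖p‖ ≤ r
  · exact (min_le_left _ _).trans (hbase r hpr)
  · have him : p.im = 0 := by
      rcases hcase with h | h
      · exact absurd h hpr
      · exact h
    rw [not_le] at hpr
    refine (min_le_right _ _).trans (max_le ?_ (hbase R hpR))
    have h1 : |(1 - p * t).im| ≤ ‖1 - p * t‖ := Complex.abs_im_le_norm _
    have h2 : (1 - p * t).im = -(p.re * t.im) := by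
      simp [Complex.sub_im, Complex.mul_im, him]
    have h3 : ‖p‖ = |p.re| := by
      have : p = (p.re : ℂ) := Complex.ext rfl (by simp [him])
      conv_lhs => rw [this]
      exact Complex.norm_real _
    rw [h2, abs_neg, abs_mul, ← h3] at h1
    calc r * |t.im| ≤ ‖p‖ * |t.im| := mul_le_mul_of_nonneg_right hpr.le (abs_nonneg _)
      _ ≤ ‖1 - p * t‖ := h1

/-- The Cauchy transform `G(t) = ∑ d(p) / (1 - p t)`. -/
def cauchyG496 (d : ℂ → ℂ) (t : ℂ) : ℂ := ∑' p, d p * (1 - p * t)⁻¹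

theorem summable_moment496 {d : ℂ → ℂ} (hd : Summable fun p => ‖d p‖) {R : ℝ}
    (hsuppR : ∀ p, d p ≠ 0 → ‖p‖ ≤ R) (m : ℕ) : Summable fun p => d p * p ^ m := by
  refine Summable.of_norm_bounded (hd.mul_right (R ^ m)) (fun p => ?_)
  by_cases hp : d p = 0
  · simp [hp]
  · rw [norm_mul, norm_pow]
    exact mul_le_mul_of_nonneg_left
      (pow_le_pow_left₀ (norm_nonneg _) (hsuppR p hp) m) (norm_nonneg _)

/-- `G` vanishes near `0` if all the moments vanish. -/
theorem cauchyG496_eq_zero_near {d : ℂ → ℂ} (hd : Summable fun p => ‖d p‖) {R : ℝ}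
    (hR : 0 < R) (hsuppR : ∀ p, d p ≠ 0 → ‖p‖ ≤ R)
    (hmom : ∀ m : ℕ, ∑' p, d p * p ^ m = 0) {t : ℂ} (ht : ‖t‖ < 1 / R) :
    cauchyG496 d t = 0 := by
  set q : ℝ := R * ‖t‖ with hq
  have hq0 : 0 ≤ q := mul_nonneg hR.le (norm_nonneg _)
  have hq1 : q < 1 := by
    rw [hq]
    calc R * ‖t‖ < R * (1 / R) := mul_lt_mul_of_pos_left ht hR
      _ = 1 := by field_simp
  have hpt : ∀ p, d p ≠ 0 → ‖p * t‖ ≤ q := by
    intro p hp
    rw [norm_mul, hq]
    exact mul_le_mul_of_nonneg_right (hsuppR p hp) (norm_nonneg _)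
  have hinv : ∀ p, d p ≠ 0 → ‖(1 - p * t)⁻¹‖ ≤ (1 - q)⁻¹ := by
    intro p hp
    rw [norm_inv]
    have h1 : ‖(1 : ℂ)‖ - ‖p * t‖ ≤ ‖1 - p * t‖ := norm_sub_norm_le _ _
    rw [norm_one] at h1
    have h2 := hpt p hp
    have h3 : 0 < 1 - q := by linarith
    exact inv_anti₀ h3 (by linarith)
  have hne : ∀ p, d p ≠ 0 → (1 : ℂ) - p * t ≠ 0 := by
    intro p hp h0
    have h1 : ‖(1 : ℂ)‖ - ‖p * t‖ ≤ ‖1 - p * t‖ := norm_sub_norm_le _ _
    rw [h0, norm_zero, norm_one] at h1
    have := hpt p hp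
    linarith
  -- the remainder
  have hrem : ∀ M : ℕ, ∀ p, d p * (1 - p * t)⁻¹
      = (∑ m ∈ Finset.range M, d p * p ^ m * t ^ m) + d p * ((p * t) ^ M * (1 - p * t)⁻¹) := by
    intro M p
    by_cases hp : d p = 0
    · simp [hp]
    · have hx := hne p hp
      have hgeo : (∑ m ∈ Finset.range M, (p * t) ^ m) * (1 - p * t) = 1 - (p * t) ^ M := by
        have := mul_neg_geom_sum (p * t) M
        rw [mul_comm] at this
        exact this
      have h0 : ((∑ m ∈ Finset.range M, (p * t) ^ m) + (p * t) ^ M * (1 - p * t)⁻¹)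
          * (1 - p * t) = 1 := by
        rw [add_mul, hgeo, mul_assoc, inv_mul_cancel₀ hx]
        ring
      have h1 : (1 - p * t)⁻¹
          = (∑ m ∈ Finset.range M, (p * t) ^ m) + (p * t) ^ M * (1 - p * t)⁻¹ :=
        (eq_inv_of_mul_eq_one_left h0).symm
      calc d p * (1 - p * t)⁻¹
          = d p * ((∑ m ∈ Finset.range M, (p * t) ^ m) + (p * t) ^ M * (1 - p * t)⁻¹) := by
            rw [← h1]
        _ = (∑ m ∈ Finset.range M, d p * p ^ m * t ^ m)
              + d p * ((p * t) ^ M * (1 - p * t)⁻¹) := by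
            rw [mul_add, Finset.mul_sum]
            congr 1
            apply Finset.sum_congr rfl
            intro m _
            rw [mul_pow]
            ring
  have hsm : ∀ m : ℕ, Summable fun p => d p * p ^ m * t ^ m := fun m =>
    (summable_moment496 hd hsuppR m).mul_right _
  have hsrem : ∀ M : ℕ, Summable fun p => d p * ((p * t) ^ M * (1 - p * t)⁻¹) := by
    intro M
    refine Summable.of_norm_bounded (hd.mul_right (q ^ M * (1 - q)⁻¹)) (fun p => ?_)
    by_cases hp : d p = 0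
    · simp [hp]
    · rw [norm_mul, norm_mul, norm_pow]
      apply mul_le_mul_of_nonneg_left _ (norm_nonneg _)
      exact mul_le_mul (pow_le_pow_left₀ (norm_nonneg _) (hpt p hp) M) (hinv p hp)
        (norm_nonneg _) (pow_nonneg hq0 M)
  have hbound : ∀ M : ℕ, ‖cauchyG496 d t‖ ≤ (∑' p, ‖d p‖) * (1 - q)⁻¹ * q ^ M := by
    intro M
    have h1 : cauchyG496 d t = ∑' p, d p * ((p * t) ^ M * (1 - p * t)⁻¹) := by
      unfold cauchyG496
      have h2 : (fun p => d p * (1 - p * t)⁻¹)
          = fun p => (∑ m ∈ Finset.range M, d p * p ^ m * t ^ m)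
              + d p * ((p * t) ^ M * (1 - p * t)⁻¹) := funext (hrem M)
      rw [h2, Summable.tsum_add (summable_sum fun m _ => hsm m) (hsrem M),
        Summable.tsum_finsetSum (fun m _ => hsm m)]
      have h3 : ∀ m ∈ Finset.range M, ∑' p, d p * p ^ m * t ^ m = 0 := by
        intro m _
        rw [tsum_mul_right, hmom m, zero_mul]
      rw [Finset.sum_eq_zero h3, zero_add]
    rw [h1]
    have hsn : Summable fun p => ‖d p * ((p * t) ^ M * (1 - p * t)⁻¹)‖ := by
      refine Summable.of_nonneg_of_le (fun _ => norm_nonneg _) (fun p => ?_)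
        (hd.mul_right (q ^ M * (1 - q)⁻¹))
      by_cases hp : d p = 0
      · simp [hp]
      · rw [norm_mul, norm_mul, norm_pow]
        apply mul_le_mul_of_nonneg_left _ (norm_nonneg _)
        exact mul_le_mul (pow_le_pow_left₀ (norm_nonneg _) (hpt p hp) M) (hinv p hp)
          (norm_nonneg _) (pow_nonneg hq0 M)
    refine (norm_tsum_le_tsum_norm hsn).trans ?_
    have : (∑' p, ‖d p‖) * (1 - q)⁻¹ * q ^ M = ∑' p, ‖d p‖ * (q ^ M * (1 - q)⁻¹) := by
      rw [tsum_mul_right]; ring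
    rw [this]
    refine hsn.tsum_le_tsum (fun p => ?_) (hd.mul_right _)
    by_cases hp : d p = 0
    · simp [hp]
    · rw [norm_mul, norm_mul, norm_pow]
      apply mul_le_mul_of_nonneg_left _ (norm_nonneg _)
      exact mul_le_mul (pow_le_pow_left₀ (norm_nonneg _) (hpt p hp) M) (hinv p hp)
        (norm_nonneg _) (pow_nonneg hq0 M)
  have hlim : Tendsto (fun M : ℕ => (∑' p, ‖d p‖) * (1 - q)⁻¹ * q ^ M) atTop (𝓝 0) := by
    have := (tendsto_pow_atTop_nhds_zero_of_lt_one hq0 hq1).const_mul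
      ((∑' p, ‖d p‖) * (1 - q)⁻¹)
    simpa using this
  have hle : ‖cauchyG496 d t‖ ≤ 0 := ge_of_tendsto' hlim hbound
  exact norm_le_zero_iff.mp hle

/-- `G` is holomorphic where the lower bound is positive. -/
theorem differentiableOn_cauchyG496 {d : ℂ → ℂ} (hd : Summable fun p => ‖d p‖) {r R : ℝ}
    (hsupp : Supp496 d r R) :
    DifferentiableOn ℂ (cauchyG496 d) {t | 0 < lowB496 r R t} := by
  intro t₁ ht₁
  have ht₁' : 0 < lowB496 r R t₁ := ht₁
  set c : ℝ := lowB496 r R t₁ / 2 with hc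
  have hc0 : 0 < c := by rw [hc]; linarith
  set V : Set ℂ := {t | c < lowB496 r R t} with hV
  have hVopen : IsOpen V := isOpen_lt continuous_const (continuous_lowB496 r R)
  have ht₁V : t₁ ∈ V := by
    show c < lowB496 r R t₁
    rw [hc]; linarith
  have hne : ∀ p, d p ≠ 0 → ∀ t ∈ V, (1 : ℂ) - p * t ≠ 0 := by
    intro p hp t ht h0
    have h1 := lowB496_le hsupp hp t
    rw [h0, norm_zero] at h1
    have : c < lowB496 r R t := ht
    linarith
  have hdiff : DifferentiableOn ℂ (fun t => ∑' p, d p * (1 - p * t)⁻¹) V := by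
    refine Complex.differentiableOn_tsum_of_summable_norm (u := fun p => ‖d p‖ * c⁻¹)
      (hd.mul_right _) ?_ hVopen ?_
    · intro p
      by_cases hp : d p = 0
      · simp only [hp, zero_mul]
        exact differentiableOn_const _
      · intro t ht
        have h1 : DifferentiableAt ℂ (fun t : ℂ => (1 : ℂ) - p * t) t := by fun_prop
        exact ((differentiableAt_const _).mul (h1.inv (hne p hp t ht))).differentiableWithinAt
    · intro p t ht
      by_cases hp : d p = 0
      · simp [hp]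
      · rw [norm_mul, norm_inv]
        apply mul_le_mul_of_nonneg_left _ (norm_nonneg _)
        have h1 := lowB496_le hsupp hp t
        have h2 : c < lowB496 r R t := ht
        exact inv_anti₀ hc0 (by linarith)
  exact (hdiff.differentiableAt (hVopen.mem_nhds ht₁V)).differentiableWithinAt

theorem isOpen_lowB496 (r R : ℝ) : IsOpen {t | 0 < lowB496 r R t} :=
  isOpen_lt continuous_const (continuous_lowB496 r R)

theorem zero_mem_lowB496 (r R : ℝ) : (0 : ℂ) ∈ {t | 0 < lowB496 r R t} := by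
  show 0 < lowB496 r R 0
  unfold lowB496
  simp

theorem starConvex_lowB496 {r R : ℝ} (hr : 0 < r) (hR : 0 ≤ R) :
    StarConvex ℝ (0 : ℂ) {t | 0 < lowB496 r R t} := by
  intro t ht a b _ hb hab
  have hb1 : b ≤ 1 := by linarith
  have ht' : 0 < lowB496 r R t := ht
  show 0 < lowB496 r R (a • (0 : ℂ) + b • t)
  rw [smul_zero, zero_add]
  unfold lowB496 at ht' ⊢
  rw [lt_min_iff, lt_max_iff] at ht' ⊢
  have hn : ‖b • t‖ = b * ‖t‖ := by
    rw [norm_smul, Real.norm_eq_abs, abs_of_nonneg hb]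
  have him : (b • t).im = b * t.im := by
    simp
  have hle : b * ‖t‖ ≤ ‖t‖ := by
    calc b * ‖t‖ ≤ 1 * ‖t‖ := mul_le_mul_of_nonneg_right hb1 (norm_nonneg _)
      _ = ‖t‖ := one_mul _
  rw [hn, him]
  refine ⟨?_, ?_⟩
  · have := mul_le_mul_of_nonneg_left hle hr.le
    linarith [ht'.1]
  · rcases ht'.2 with h | h
    · rcases eq_or_lt_of_le hb with hb0 | hbpos
      · right
        rw [← hb0]
        simp
      · left
        rw [abs_mul, abs_of_pos hbpos]
        have h' : 0 < |t.im| := by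
          by_contra hcon
          have : |t.im| = 0 := le_antisymm (not_lt.mp hcon) (abs_nonneg _)
          rw [this, mul_zero] at h
          exact lt_irrefl _ h
        positivity
    · right
      have := mul_le_mul_of_nonneg_left hle hR
      linarith

/-- `G` vanishes on the whole star domain. -/
theorem cauchyG496_eq_zero {d : ℂ → ℂ} (hd : Summable fun p => ‖d p‖) {r R : ℝ}
    (hr : 0 < r) (hR : 0 < R) (hsupp : Supp496 d r R)
    (hmom : ∀ m : ℕ, ∑' p, d p * p ^ m = 0) {t : ℂ} (ht : 0 < lowB496 r R t) :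
    cauchyG496 d t = 0 := by
  have han : AnalyticOnNhd ℂ (cauchyG496 d) {t | 0 < lowB496 r R t} :=
    (differentiableOn_cauchyG496 hd hsupp).analyticOnNhd (isOpen_lowB496 r R)
  have hpre : IsPreconnected {t : ℂ | 0 < lowB496 r R t} :=
    ((starConvex_lowB496 hr hR.le).isPathConnected
      (zero_mem_lowB496 r R)).isConnected.isPreconnected
  have hnear : cauchyG496 d =ᶠ[𝓝 (0 : ℂ)] 0 := by
    have hball : Metric.ball (0 : ℂ) (1 / R) ∈ 𝓝 (0 : ℂ) :=
      Metric.ball_mem_nhds _ (by positivity)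
    filter_upwards [hball] with t ht
    rw [Metric.mem_ball, dist_zero_right] at ht
    exact cauchyG496_eq_zero_near hd hR (fun p hp => (hsupp p hp).1) hmom ht
  exact han.eqOn_zero_of_preconnected_of_eventuallyEq_zero hpre (zero_mem_lowB496 r R) hnear ht

/-- **Real atoms outside the disc of radius `r` carry no mass.** -/
theorem real_atom_zero496 {d : ℂ → ℂ} (hd : Summable fun p => ‖d p‖) {r R : ℝ}
    (hr : 0 < r) (hR : 0 < R) (hsupp : Supp496 d r R)
    (hmom : ∀ m : ℕ, ∑' p, d p * p ^ m = 0) {p₀ : ℂ} (hp₀ : p₀.im = 0) (hp₀r : r < ‖p₀‖) :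
    d p₀ = 0 := by
  classical
  have hp₀0 : p₀ ≠ 0 := by
    intro h0
    rw [h0, norm_zero] at hp₀r
    linarith
  have hp₀pos : 0 < ‖p₀‖ := norm_pos_iff.2 hp₀0
  set u : ℂ := p₀⁻¹ with hu
  have huim : u.im = 0 := by
    rw [hu, Complex.inv_im, hp₀]
    simp
  have hunorm : ‖u‖ = ‖p₀‖⁻¹ := by rw [hu, norm_inv]
  have hur : ‖u‖ < 1 / r := by
    rw [hunorm, one_div]
    exact inv_strictAnti₀ hr hp₀r
  set ε₀ : ℝ := (1 / r - ‖u‖) / 2 with hε₀
  have hε₀pos : 0 < ε₀ := by rw [hε₀]; linarith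
  set c₁ : ℝ := 1 - r * (‖u‖ + ε₀) with hc₁
  have hc₁pos : 0 < c₁ := by
    have h1 : ‖u‖ + ε₀ < 1 / r := by rw [hε₀]; linarith
    have h2 : r * (‖u‖ + ε₀) < r * (1 / r) := mul_lt_mul_of_pos_left h1 hr
    have h3 : r * (1 / r) = 1 := by field_simp
    rw [hc₁]; linarith
  -- the points `t_ε = 1/p₀ + i ε`
  let tt : ℝ → ℂ := fun ε => u + (ε : ℂ) * Complex.I
  have htt_im : ∀ ε : ℝ, (tt ε).im = ε := by
    intro ε
    simp [tt, huim]
  have htt_norm : ∀ ε : ℝ, 0 ≤ ε → ‖tt ε‖ ≤ ‖u‖ + ε := by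
    intro ε hε
    calc ‖tt ε‖ ≤ ‖u‖ + ‖(ε : ℂ) * Complex.I‖ := norm_add_le _ _
      _ = ‖u‖ + ε := by
          rw [norm_mul, Complex.norm_I, mul_one, Complex.norm_real, Real.norm_eq_abs,
            abs_of_nonneg hε]
  have hone : ∀ ε : ℝ, (1 : ℂ) - p₀ * tt ε = -(p₀ * ((ε : ℂ) * Complex.I)) := by
    intro ε
    simp only [tt]
    rw [mul_add, hu, mul_inv_cancel₀ hp₀0]
    ring
  have hone_norm : ∀ ε : ℝ, 0 ≤ ε → ‖(1 : ℂ) - p₀ * tt ε‖ = ‖p₀‖ * ε := by
    intro ε hε
    rw [hone, norm_neg, norm_mul, norm_mul, Complex.norm_I, mul_one, Complex.norm_real,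
      Real.norm_eq_abs, abs_of_nonneg hε]
  have hlow : ∀ ε : ℝ, 0 < ε → ε < ε₀ → 0 < lowB496 r R (tt ε) := by
    intro ε hε hεε
    unfold lowB496
    rw [lt_min_iff, lt_max_iff]
    refine ⟨?_, Or.inl ?_⟩
    · have h1 := htt_norm ε hε.le
      have h2 : r * ‖tt ε‖ ≤ r * (‖u‖ + ε₀) :=
        mul_le_mul_of_nonneg_left (by linarith) hr.le
      rw [hc₁] at hc₁pos
      linarith
    · rw [htt_im, abs_of_pos hε]
      positivity
  -- the family
  let f : ℝ → ℂ → ℂ := fun ε p => d p * (((1 : ℂ) - p₀ * tt ε) * ((1 : ℂ) - p * tt ε)⁻¹)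
  have hfsum : ∀ ε : ℝ, 0 < ε → ε < ε₀ → ∑' p, f ε p = 0 := by
    intro ε hε hεε
    have h1 : ∀ p, f ε p = ((1 : ℂ) - p₀ * tt ε) * (d p * ((1 : ℂ) - p * tt ε)⁻¹) := by
      intro p
      simp only [f]
      ring
    simp_rw [h1]
    rw [tsum_mul_left]
    have := cauchyG496_eq_zero hd hr hR hsupp hmom (hlow ε hε hεε)
    unfold cauchyG496 at this
    rw [this, mul_zero]
  set C : ℝ := max (‖p₀‖ / r) (‖p₀‖ * ε₀ / c₁) with hC
  have hCnn : 0 ≤ C := le_max_of_le_left (by positivity)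
  have hbound : ∀ ε : ℝ, 0 < ε → ε < ε₀ → ∀ p, ‖f ε p‖ ≤ ‖d p‖ * C := by
    intro ε hε hεε p
    by_cases hp : d p = 0
    · simp [f, hp]
    simp only [f]
    rw [norm_mul, norm_mul, norm_inv, hone_norm ε hε.le]
    apply mul_le_mul_of_nonneg_left _ (norm_nonneg _)
    obtain ⟨hpR, hcase⟩ := hsupp p hp
    by_cases hpr : ‖p‖ ≤ r
    · -- atoms in the small disc
      have h1 : c₁ ≤ ‖(1 : ℂ) - p * tt ε‖ := by
        have h2 : ‖(1 : ℂ)‖ - ‖p * tt ε‖ ≤ ‖1 - p * tt ε‖ := norm_sub_norm_le _ _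
        rw [norm_one, norm_mul] at h2
        have h3 : ‖p‖ * ‖tt ε‖ ≤ r * (‖u‖ + ε₀) :=
          mul_le_mul hpr ((htt_norm ε hε.le).trans (by linarith)) (norm_nonneg _) hr.le
        rw [hc₁]; linarith
      calc ‖p₀‖ * ε * ‖(1 : ℂ) - p * tt ε‖⁻¹ ≤ ‖p₀‖ * ε₀ * c₁⁻¹ := by
            apply mul_le_mul _ (inv_anti₀ hc₁pos h1) (inv_nonneg.2 (norm_nonneg _))
              (by positivity)
            exact mul_le_mul_of_nonneg_left hεε.le (norm_nonneg _)
        _ = ‖p₀‖ * ε₀ / c₁ := by rw [div_eq_mul_inv]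
        _ ≤ C := le_max_right _ _
    · -- real atoms
      rw [not_le] at hpr
      have him : p.im = 0 := by
        rcases hcase with h | h
        · exact absurd h (not_le.2 hpr)
        · exact h
      have h1 : r * ε ≤ ‖(1 : ℂ) - p * tt ε‖ := by
        have h2 : |((1 : ℂ) - p * tt ε).im| ≤ ‖(1 : ℂ) - p * tt ε‖ := Complex.abs_im_le_norm _
        have h3 : ((1 : ℂ) - p * tt ε).im = -(p.re * ε) := by
          simp [Complex.sub_im, Complex.mul_im, him, htt_im]
        have h4 : ‖p‖ = |p.re| := by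
          have : p = (p.re : ℂ) := Complex.ext rfl (by simp [him])
          conv_lhs => rw [this]
          exact Complex.norm_real _
        rw [h3, abs_neg, abs_mul, ← h4, abs_of_pos hε] at h2
        calc r * ε ≤ ‖p‖ * ε := mul_le_mul_of_nonneg_right hpr.le hε.le
          _ ≤ _ := h2
      have hrε : 0 < r * ε := mul_pos hr hε
      calc ‖p₀‖ * ε * ‖(1 : ℂ) - p * tt ε‖⁻¹ ≤ ‖p₀‖ * ε * (r * ε)⁻¹ :=
            mul_le_mul_of_nonneg_left (inv_anti₀ hrε h1) (by positivity)
        _ = ‖p₀‖ / r := by field_simp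
        _ ≤ C := le_max_left _ _
  -- the limit
  have hlim : Tendsto (fun ε : ℝ => ∑' p, f ε p) (𝓝[>] (0 : ℝ))
      (𝓝 (∑' p, (if p = p₀ then d p₀ else 0))) := by
    refine tendsto_tsum_of_dominated_convergence (bound := fun p => ‖d p‖ * C)
      (hd.mul_right C) ?_ ?_
    · intro p
      by_cases hpp : p = p₀
      · rw [if_pos hpp]
        refine tendsto_const_nhds.congr' ?_
        filter_upwards [self_mem_nhdsWithin] with ε hε
        have hε' : 0 < ε := hε
        simp only [f]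
        rw [hpp]
        have hne : (1 : ℂ) - p₀ * tt ε ≠ 0 := by
          intro h0
          have := hone_norm ε hε'.le
          rw [h0, norm_zero] at this
          have : 0 < ‖p₀‖ * ε := mul_pos hp₀pos hε'
          linarith
        rw [mul_inv_cancel₀ hne, mul_one]
      · rw [if_neg hpp]
        have hden : (1 : ℂ) - p * tt 0 ≠ 0 := by
          simp only [tt, Complex.ofReal_zero, zero_mul, add_zero]
          intro h0
          have h1 : p * u = 1 := (sub_eq_zero.mp h0).symm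
          have h2 : p = p₀ := by
            have := congrArg (fun x => x * p₀) h1
            simp only [hu, mul_assoc, inv_mul_cancel₀ hp₀0, mul_one, one_mul] at this
            exact this
          exact hpp h2
        have hcont : ContinuousAt
            (fun ε : ℝ => d p * (((1 : ℂ) - p₀ * tt ε) * ((1 : ℂ) - p * tt ε)⁻¹)) 0 := by
          have htc : Continuous tt := by
            simp only [tt]
            fun_prop
          have h1 : ContinuousAt (fun ε : ℝ => (1 : ℂ) - p₀ * tt ε) 0 := by fun_prop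
          have h2 : ContinuousAt (fun ε : ℝ => (1 : ℂ) - p * tt ε) 0 := by fun_prop
          exact continuousAt_const.mul (h1.mul (h2.inv₀ hden))
        have hval : d p * (((1 : ℂ) - p₀ * tt 0) * ((1 : ℂ) - p * tt 0)⁻¹) = 0 := by
          have : (1 : ℂ) - p₀ * tt 0 = 0 := by
            rw [hone]
            simp
          rw [this, zero_mul, mul_zero]
        have := hcont.tendsto
        rw [hval] at this
        exact tendsto_nhdsWithin_of_tendsto_nhds this
    · have hmem : Set.Ioo (0 : ℝ) ε₀ ∈ 𝓝[>] (0 : ℝ) := Ioo_mem_nhdsGT hε₀pos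
      filter_upwards [hmem] with ε hε
      exact fun p => hbound ε hε.1 hε.2 p
  have hzero : Tendsto (fun ε : ℝ => ∑' p, f ε p) (𝓝[>] (0 : ℝ)) (𝓝 0) := by
    refine tendsto_const_nhds.congr' ?_
    have hmem : Set.Ioo (0 : ℝ) ε₀ ∈ 𝓝[>] (0 : ℝ) := Ioo_mem_nhdsGT hε₀pos
    filter_upwards [hmem] with ε hε
    exact (hfsum ε hε.1 hε.2).symm
  have := tendsto_nhds_unique hlim hzero
  rw [tsum_ite_eq] at this
  exact this

/-! ## 3. The core: atoms on the unit circle and on the real axis -/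

/-- **CORE.**  An absolutely summable family of masses `d p` at points `p ≠ 0` of the unit
circle and of the real axis (bounded), all of whose moments vanish, is zero. -/
theorem core496 {d : ℂ → ℂ} (hd : Summable fun p => ‖d p‖) {R : ℝ}
    (hsupp : ∀ p, d p ≠ 0 → p ≠ 0 ∧ ‖p‖ ≤ R ∧ (‖p‖ = 1 ∨ p.im = 0))
    (hmom : ∀ m : ℕ, ∑' p, d p * p ^ m = 0) : ∀ p, d p = 0 := by
  classical
  set R' : ℝ := max R 1 with hR'
  have hR'pos : 0 < R' := lt_of_lt_of_le one_pos (le_max_right _ _)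
  -- Step A: the real atoms outside the unit disc
  have hsuppA : Supp496 d 1 R' := by
    intro p hp
    obtain ⟨_, h1, h2⟩ := hsupp p hp
    refine ⟨h1.trans (le_max_left _ _), ?_⟩
    rcases h2 with h | h
    · exact Or.inl h.le
    · exact Or.inr h
  have stepA : ∀ p₀ : ℂ, p₀.im = 0 → 1 < ‖p₀‖ → d p₀ = 0 := fun p₀ h1 h2 =>
    real_atom_zero496 hd one_pos hR'pos hsuppA hmom h1 h2
  have hle1 : ∀ p, d p ≠ 0 → ‖p‖ ≤ 1 := by
    intro p hp
    obtain ⟨_, _, h2⟩ := hsupp p hp
    rcases h2 with h | h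
    · exact h.le
    · by_contra hcon
      exact hp (stepA p h (not_le.mp hcon))
  -- Step B: the unit circle
  have stepB : ∀ p₀ : ℂ, ‖p₀‖ = 1 → d p₀ = 0 := by
    intro p₀ hp₀
    have hp₀0 : p₀ ≠ 0 := by
      intro h0
      rw [h0, norm_zero] at hp₀
      exact zero_ne_one hp₀
    let z : ℂ → ℂ := fun p => if d p = 0 then 0 else p * p₀⁻¹
    have hz : ∀ p, ‖z p‖ ≤ 1 := by
      intro p
      simp only [z]
      split_ifs with h
      · simp
      · rw [norm_mul, norm_inv, hp₀, inv_one, mul_one]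
        exact hle1 p h
    have hzmom : ∀ k : ℕ, ∑' p, d p * z p ^ k = 0 := by
      intro k
      have h1 : ∀ p, d p * z p ^ k = d p * p ^ k * (p₀⁻¹) ^ k := by
        intro p
        simp only [z]
        split_ifs with h
        · simp [h]
        · rw [mul_pow]; ring
      simp_rw [h1]
      rw [tsum_mul_right, hmom k, zero_mul]
    have h := cesaro_isolate496 d z hd hz hzmom
    have h2 : ∀ p, (if z p = 1 then d p else 0) = if p = p₀ then d p₀ else 0 := by
      intro p
      by_cases hdp : d p = 0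
      · have : z p = 0 := by simp [z, hdp]
        rw [this]
        by_cases hpp : p = p₀
        · rw [if_pos hpp, ← hpp, hdp]
          simp
        · rw [if_neg hpp]
          simp
      · have hzp : z p = p * p₀⁻¹ := by simp [z, hdp]
        rw [hzp]
        by_cases hpp : p = p₀
        · rw [if_pos hpp, hpp, mul_inv_cancel₀ hp₀0, if_pos rfl]
        · rw [if_neg hpp, if_neg]
          intro h1
          apply hpp
          have := congrArg (fun x => x * p₀) h1
          simp only [mul_assoc, inv_mul_cancel₀ hp₀0, mul_one, one_mul] at this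
          exact this
    simp_rw [h2] at h
    rw [tsum_ite_eq] at h
    exact h
  -- Step C: the real atoms
  have stepC : ∀ p₀ : ℂ, p₀.im = 0 → p₀ ≠ 0 → d p₀ = 0 := by
    intro p₀ him h0
    have hpos : 0 < ‖p₀‖ := norm_pos_iff.2 h0
    have hsuppC : Supp496 d (‖p₀‖ / 2) R' := by
      intro p hp
      obtain ⟨_, h1, h2⟩ := hsupp p hp
      refine ⟨h1.trans (le_max_left _ _), Or.inr ?_⟩
      rcases h2 with h | h
      · exact absurd (stepB p h) hp
      · exact h
    exact real_atom_zero496 hd (by positivity) hR'pos hsuppC hmom him (by linarith)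
  intro p
  by_contra hp
  obtain ⟨h0, _, h2⟩ := hsupp p hp
  rcases h2 with h | h
  · exact hp (stepB p h)
  · exact hp (stepC p h h0)

/-! ## 4. Families with multiplicities -/

/-- **CORE with multiplicities.**  A family of atoms `μ i ≠ 0` on the unit circle and on the
real axis, with absolutely summable coefficients, whose moments of order `≥ m₀` vanish, has total
coefficient zero over every point. -/
theorem family_core496 {I : Type*} (c μ : I → ℂ) (hc : Summable fun i => ‖c i‖) {R : ℝ}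
    (hμ : ∀ i, μ i ≠ 0 ∧ ‖μ i‖ ≤ R ∧ (‖μ i‖ = 1 ∨ (μ i).im = 0))
    (m₀ : ℕ) (hmom : ∀ m, m₀ ≤ m → ∑' i, c i * μ i ^ m = 0) (p₀ : ℂ) :
    ∑' i : {i // μ i = p₀}, c i = 0 := by
  classical
  let c' : I → ℂ := fun i => c i * μ i ^ m₀
  have hc'le : ∀ i, ‖c' i‖ ≤ ‖c i‖ * R ^ m₀ := by
    intro i
    simp only [c']
    rw [norm_mul, norm_pow]
    exact mul_le_mul_of_nonneg_left (pow_le_pow_left₀ (norm_nonneg _) (hμ i).2.1 m₀)
      (norm_nonneg _)
  have hc' : Summable fun i => ‖c' i‖ :=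
    Summable.of_nonneg_of_le (fun _ => norm_nonneg _) hc'le (hc.mul_right _)
  let E := Equiv.sigmaFiberEquiv μ
  let d : ℂ → ℂ := fun p => ∑' i : {i // μ i = p}, c' i
  have hcE : Summable fun q : (p : ℂ) × {i // μ i = p} => ‖c' (E q)‖ :=
    (E.summable_iff (f := fun i => ‖c' i‖)).2 hc'
  have hbound : ∀ p, ‖d p‖ ≤ ∑' i : {i // μ i = p}, ‖c' i‖ := fun p =>
    norm_tsum_le_tsum_norm (hcE.sigma_factor p)
  have hd : Summable fun p => ‖d p‖ :=
    Summable.of_nonneg_of_le (fun p => norm_nonneg _) hbound hcE.sigma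
  have hsupp : ∀ p, d p ≠ 0 → p ≠ 0 ∧ ‖p‖ ≤ R ∧ (‖p‖ = 1 ∨ p.im = 0) := by
    intro p hp
    have hne : Nonempty {i // μ i = p} := by
      by_contra hcon
      rw [not_nonempty_iff] at hcon
      exact hp tsum_empty
    obtain ⟨i, hi⟩ := hne
    rw [← hi]
    exact hμ i
  have hsm : ∀ m : ℕ, Summable fun i => c' i * μ i ^ m := by
    intro m
    refine Summable.of_norm_bounded (hc'.mul_right (R ^ m)) (fun i => ?_)
    rw [norm_mul, norm_pow]
    exact mul_le_mul_of_nonneg_left (pow_le_pow_left₀ (norm_nonneg _) (hμ i).2.1 m)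
      (norm_nonneg _)
  have hdmom : ∀ m : ℕ, ∑' p, d p * p ^ m = 0 := by
    intro m
    have hs : Summable fun q : (p : ℂ) × {i // μ i = p} => c' (E q) * μ (E q) ^ m :=
      (E.summable_iff (f := fun i => c' i * μ i ^ m)).2 (hsm m)
    have h1 : ∑' q : (p : ℂ) × {i // μ i = p}, c' (E q) * μ (E q) ^ m = 0 := by
      rw [E.tsum_eq (fun i => c' i * μ i ^ m)]
      have := hmom (m₀ + m) (Nat.le_add_right _ _)
      rw [← this]
      congr 1
      funext i
      simp only [c']
      rw [pow_add]; ring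
    rw [hs.tsum_sigma' (fun p => hs.sigma_factor p)] at h1
    rw [← h1]
    congr 1
    funext p
    have hcp : Summable fun i : {i // μ i = p} => c' i := (hcE.sigma_factor p).of_norm
    simp only [d]
    rw [← hcp.tsum_mul_right]
    congr 1
    funext i
    have : μ (E ⟨p, i⟩) = p := i.2
    rw [this]
    rfl
  have hzero := core496 hd hsupp hdmom p₀
  by_cases hne : Nonempty {i // μ i = p₀}
  · obtain ⟨i₀, hi₀⟩ := hne
    have hp₀ : p₀ ≠ 0 := by rw [← hi₀]; exact (hμ i₀).1
    have h1 : d p₀ = (∑' i : {i // μ i = p₀}, c i) * p₀ ^ m₀ := by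
      simp only [d, c']
      rw [← tsum_mul_right]
      congr 1
      funext i
      rw [i.2]
    rw [h1] at hzero
    rcases mul_eq_zero.mp hzero with h | h
    · exact h
    · exact absurd h (pow_ne_zero _ hp₀)
  · rw [not_nonempty_iff] at hne
    exact tsum_empty

/-! ## 5. Linear independence of the characters `(b, λ) ↦ b^k λ^m` -/

/-- The condition on the parameters of an atom (= `T7.IsRegParam`). -/
def RegParam496 (R : ℝ) (b l : ℂ) : Prop :=
  ‖b‖ = 1 ∧ ‖l‖ ≤ R ∧ (‖l‖ = 1 ∨ ∃ t : ℝ, 0 < t ∧ l ^ 2 = (t : ℂ) * b)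

theorem RegParam496.ne_zero {R : ℝ} {b l : ℂ} (h : RegParam496 R b l) : l ≠ 0 := by
  intro h0
  rcases h.2.2 with h1 | ⟨t, ht, h1⟩
  · rw [h0, norm_zero] at h1
    exact zero_ne_one h1
  · rw [h0] at h1
    have hb : b ≠ 0 := by
      intro hb
      have := h.1
      rw [hb, norm_zero] at this
      exact zero_ne_one this
    have : (t : ℂ) * b ≠ 0 := mul_ne_zero (by exact_mod_cast ht.ne') hb
    apply this
    rw [← h1]
    simp

/-- A complex number whose square is a positive real number is real. -/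
theorem im_eq_zero_of_sq_pos496 {z : ℂ} {t : ℝ} (ht : 0 < t) (h : z ^ 2 = (t : ℂ)) :
    z.im = 0 := by
  have hre := congrArg Complex.re h
  have him := congrArg Complex.im h
  rw [pow_two, Complex.mul_re, Complex.ofReal_re] at hre
  rw [pow_two, Complex.mul_im, Complex.ofReal_im] at him
  by_contra hne
  have h1 : z.re = 0 := by
    have : z.re * z.im = 0 := by linarith
    rcases mul_eq_zero.mp this with h | h
    · exact h
    · exact absurd h hne
  rw [h1] at hre
  nlinarith [sq_nonneg z.im]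

theorem tsum_ite_subtype496 {J : Type*} (P : J → Prop) [DecidablePred P] (g : J → ℂ) :
    ∑' n, (if P n then g n else 0) = ∑' n : {n // P n}, g n := by
  have := tsum_subtype {n | P n} g
  rw [show (∑' n : {n // P n}, g n) = ∑' n : ({n | P n} : Set J), g n from rfl, this]
  congr 1
  funext n
  by_cases h : P n
  · rw [if_pos h, Set.indicator_of_mem (show n ∈ {n | P n} from h)]
  · rw [if_neg h, Set.indicator_of_notMem (show n ∉ {n | P n} from h)]

/-- **EXP-SEP for one family.** -/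
theorem expSep_single496 {J : Type*} (c B L : J → ℂ) (R : ℝ) (m₀ : ℕ)
    (hc : Summable fun n => ‖c n‖) (hP : ∀ n, RegParam496 R (B n) (L n))
    (h : ∀ m : ℕ, m₀ ≤ m → ∀ k : ℤ, ∑' n, c n * B n ^ k * L n ^ m = 0) (b₀ l₀ : ℂ) :
    ∑' n : {n // B n = b₀ ∧ L n = l₀}, c n = 0 := by
  classical
  by_cases hb₀ : ‖b₀‖ = 1
  swap
  · have : IsEmpty {n // B n = b₀ ∧ L n = l₀} := by
      refine ⟨fun n => hb₀ ?_⟩
      rw [← n.2.1]
      exact (hP n.1).1
    exact tsum_empty
  have hb₀0 : b₀ ≠ 0 := by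
    intro h0
    rw [h0, norm_zero] at hb₀
    exact zero_ne_one hb₀
  -- Step 1: isolate `b₀` by Cesàro means in `k`
  have step1 : ∀ m : ℕ, m₀ ≤ m → ∑' n : {n // B n = b₀}, c n * L n ^ m = 0 := by
    intro m hm
    let e : J → ℂ := fun n => c n * L n ^ m
    let z : J → ℂ := fun n => B n * b₀⁻¹
    have he : Summable fun n => ‖e n‖ := by
      refine Summable.of_nonneg_of_le (fun _ => norm_nonneg _) (fun n => ?_)
        (hc.mul_right (R ^ m))
      simp only [e]
      rw [norm_mul, norm_pow]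
      exact mul_le_mul_of_nonneg_left (pow_le_pow_left₀ (norm_nonneg _) (hP n).2.1 m)
        (norm_nonneg _)
    have hz : ∀ n, ‖z n‖ ≤ 1 := by
      intro n
      simp only [z]
      rw [norm_mul, norm_inv, hb₀, (hP n).1, inv_one, mul_one]
    have hmom : ∀ k : ℕ, ∑' n, e n * z n ^ k = 0 := by
      intro k
      have h1 : ∀ n, e n * z n ^ k = c n * B n ^ (k : ℤ) * L n ^ m * (b₀⁻¹) ^ k := by
        intro n
        simp only [e, z]
        rw [mul_pow, zpow_natCast]
        ring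
      simp_rw [h1]
      rw [tsum_mul_right, h m hm (k : ℤ), zero_mul]
    have := cesaro_isolate496 e z he hz hmom
    have h2 : ∀ n, (if z n = 1 then e n else 0) = if B n = b₀ then c n * L n ^ m else 0 := by
      intro n
      have hiff : z n = 1 ↔ B n = b₀ := by
        simp only [z]
        constructor
        · intro h1
          have := congrArg (fun x => x * b₀) h1
          simp only [mul_assoc, inv_mul_cancel₀ hb₀0, mul_one, one_mul] at this
          exact this
        · intro h1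
          rw [h1, mul_inv_cancel₀ hb₀0]
      by_cases hn : B n = b₀
      · rw [if_pos (hiff.2 hn), if_pos hn]
      · rw [if_neg (fun h1 => hn (hiff.1 h1)), if_neg hn]
    simp_rw [h2] at this
    rw [tsum_ite_subtype496 (fun n => B n = b₀) (fun n => c n * L n ^ m)] at this
    exact this
  -- Step 2: the family over `b₀`
  obtain ⟨ζ₀, hζ₀⟩ := IsAlgClosed.exists_pow_nat_eq b₀ (n := 2) (by norm_num)
  have hζ₀n : ‖ζ₀‖ = 1 := by
    have h1 : ‖ζ₀‖ ^ 2 = 1 := by rw [← norm_pow, hζ₀, hb₀]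
    have h2 : 0 ≤ ‖ζ₀‖ := norm_nonneg _
    nlinarith
  have hζ₀0 : ζ₀ ≠ 0 := by
    intro h0
    rw [h0, norm_zero] at hζ₀n
    exact zero_ne_one hζ₀n
  let J₀ := {n // B n = b₀}
  let c₀ : J₀ → ℂ := fun n => c n.1
  let μ : J₀ → ℂ := fun n => L n.1 * ζ₀⁻¹
  have hc₀ : Summable fun n : J₀ => ‖c₀ n‖ := hc.subtype _
  have hμ : ∀ n : J₀, μ n ≠ 0 ∧ ‖μ n‖ ≤ R ∧ (‖μ n‖ = 1 ∨ (μ n).im = 0) := by
    intro n
    have hn := hP n.1
    have hnorm : ‖μ n‖ = ‖L n.1‖ := by
      simp only [μ]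
      rw [norm_mul, norm_inv, hζ₀n, inv_one, mul_one]
    refine ⟨mul_ne_zero hn.ne_zero (inv_ne_zero hζ₀0), by rw [hnorm]; exact hn.2.1, ?_⟩
    rcases hn.2.2 with h1 | ⟨t, ht, h1⟩
    · left
      rw [hnorm, h1]
    · right
      apply im_eq_zero_of_sq_pos496 ht
      simp only [μ]
      rw [mul_pow, h1, n.2, ← hζ₀, inv_pow]
      field_simp
  have hmom₀ : ∀ m : ℕ, m₀ ≤ m → ∑' n : J₀, c₀ n * μ n ^ m = 0 := by
    intro m hm
    have h1 : ∀ n : J₀, c₀ n * μ n ^ m = c n.1 * L n.1 ^ m * (ζ₀⁻¹) ^ m := by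
      intro n
      simp only [c₀, μ]
      rw [mul_pow]
      ring
    simp_rw [h1]
    rw [tsum_mul_right, step1 m hm, zero_mul]
  have hfin := family_core496 c₀ μ hc₀ hμ m₀ hmom₀ (l₀ * ζ₀⁻¹)
  -- identify the fibres
  let Φ : {n // B n = b₀ ∧ L n = l₀} ≃ {n : J₀ // μ n = l₀ * ζ₀⁻¹} :=
    { toFun := fun n => ⟨⟨n.1, n.2.1⟩, by simp only [μ]; rw [n.2.2]⟩
      invFun := fun n => ⟨n.1.1, n.1.2, by
        have h1 : L n.1.1 * ζ₀⁻¹ = l₀ * ζ₀⁻¹ := n.2
        exact mul_right_cancel₀ (inv_ne_zero hζ₀0) h1⟩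
      left_inv := fun n => rfl
      right_inv := fun n => rfl }
  rw [← Φ.tsum_eq (fun n : {n : J₀ // μ n = l₀ * ζ₀⁻¹} => c₀ n.1)] at hfin
  exact hfin

/-- **EXP-SEP (linear independence of characters at the regular place)**, Mathlib-only form of
`T7.ExpSepC`. -/
theorem expSep_core496 (ι ι' : Type) (a : ι → ℂ) (a' : ι' → ℂ) (b l : ι → ℂ) (b' l' : ι' → ℂ)
    (R : ℝ) (m₀ : ℕ)
    (ha : Summable fun i => ‖a i‖) (ha' : Summable fun j => ‖a' j‖)
    (hp : ∀ i, RegParam496 R (b i) (l i)) (hp' : ∀ j, RegParam496 R (b' j) (l' j))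
    (h : ∀ m : ℕ, m₀ ≤ m → ∀ k : ℤ,
      ∑' i, a i * b i ^ k * l i ^ m = ∑' j, a' j * b' j ^ k * l' j ^ m)
    (b₀ l₀ : ℂ) :
    ∑' i : {i : ι // b i = b₀ ∧ l i = l₀}, a i
      = ∑' j : {j : ι' // b' j = b₀ ∧ l' j = l₀}, a' j := by
  classical
  let c : ι ⊕ ι' → ℂ := Sum.elim a (fun j => -a' j)
  let B : ι ⊕ ι' → ℂ := Sum.elim b b'
  let L : ι ⊕ ι' → ℂ := Sum.elim l l'
  have hc : Summable fun n => ‖c n‖ := by
    have h1 : Summable fun i => ‖c (Sum.inl i)‖ := by simpa [c] using ha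
    have h2 : Summable fun j => ‖c (Sum.inr j)‖ := by simpa [c] using ha'
    exact Summable.sum (fun n => ‖c n‖) h1 h2
  have hP : ∀ n, RegParam496 R (B n) (L n) := by
    rintro (i | j)
    · exact hp i
    · exact hp' j
  have hterm : ∀ (m : ℕ) (k : ℤ), Summable fun n => c n * B n ^ k * L n ^ m := by
    intro m k
    refine Summable.of_norm_bounded (hc.mul_right (R ^ m)) (fun n => ?_)
    rw [norm_mul, norm_mul, norm_zpow, (hP n).1, one_zpow, mul_one, norm_pow]
    exact mul_le_mul_of_nonneg_left (pow_le_pow_left₀ (norm_nonneg _) (hP n).2.1 m)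
      (norm_nonneg _)
  have hzero : ∀ m : ℕ, m₀ ≤ m → ∀ k : ℤ, ∑' n, c n * B n ^ k * L n ^ m = 0 := by
    intro m hm k
    have hs := hterm m k
    have h1 : Summable fun i => c (Sum.inl i) * B (Sum.inl i) ^ k * L (Sum.inl i) ^ m :=
      hs.comp_injective Sum.inl_injective
    have h2 : Summable fun j => c (Sum.inr j) * B (Sum.inr j) ^ k * L (Sum.inr j) ^ m :=
      hs.comp_injective Sum.inr_injective
    rw [Summable.tsum_sum (f := fun n => c n * B n ^ k * L n ^ m) h1 h2]
    simp only [c, B, L, Sum.elim_inl, Sum.elim_inr, neg_mul]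
    rw [tsum_neg, h m hm k, add_neg_cancel]
  have hfib := expSep_single496 c B L R m₀ hc hP hzero b₀ l₀
  let Φ : {i // b i = b₀ ∧ l i = l₀} ⊕ {j // b' j = b₀ ∧ l' j = l₀}
      ≃ {n // B n = b₀ ∧ L n = l₀} :=
    { toFun := Sum.elim (fun i => ⟨Sum.inl i.1, i.2⟩) (fun j => ⟨Sum.inr j.1, j.2⟩)
      invFun := fun n => match n with
        | ⟨Sum.inl i, hi⟩ => Sum.inl ⟨i, hi⟩
        | ⟨Sum.inr j, hj⟩ => Sum.inr ⟨j, hj⟩
      left_inv := by rintro (i | j) <;> rfl
      right_inv := by rintro ⟨i | j, hk⟩ <;> rfl }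
  rw [← Φ.tsum_eq (fun n : {n // B n = b₀ ∧ L n = l₀} => c n)] at hfib
  have hsx : Summable fun i : {i // b i = b₀ ∧ l i = l₀} => a i := (ha.subtype _).of_norm
  have hsy : Summable fun j : {j // b' j = b₀ ∧ l' j = l₀} => a' j := (ha'.subtype _).of_norm
  have h1 : Summable fun i : {i // b i = b₀ ∧ l i = l₀} => c (Φ (Sum.inl i)) := by
    simpa [Φ, c] using hsx
  have h2 : Summable fun j : {j // b' j = b₀ ∧ l' j = l₀} => c (Φ (Sum.inr j)) := by
    simpa [Φ, c] using hsy.neg
  rw [Summable.tsum_sum (f := fun n => c (Φ n)) h1 h2] at hfib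
  simp only [Φ, c, Equiv.coe_fn_mk, Sum.elim_inl, Sum.elim_inr] at hfib
  rw [tsum_neg] at hfib
  exact eq_of_sub_eq_zero (by rw [sub_eq_add_neg]; exact hfib)


end Fermat.Agent.LT.T7.ES496

end
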