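import Mathlib
import Fermat.Agent.LT.T7.Reg
import Fermat.Agent.LT.T7.H496.ExpSepCore

/-!
# Row LT, tower T7, leaf `T7.C7 = ExpSepC` (SPARE, helper496)

OFF-MAIN.  `expSepC496 : T7.ExpSepC`, VERBATIM the Prop of `LT/T7/Reg.lean`
(helper797@b38c7aa5e, sha256 d3ff893f1400169d).  The proof is `ES496.expSep_core496`
(`LT/T7/H496/ExpSepCore.lean`, Mathlib only); `T7.IsRegParam` and `ES496.RegParam496` have the
same body.
-/

set_option autoImplicit false

noncomputable section

namespace Fermat.Agent.LT.T7.H496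

open Fermat.Agent.LT.T7

/-- **LEAF T7.C7 = EXP-SEP.** -/
theorem expSepC496 : ExpSepC := by
  intro ι ι' a a' b l b' l' R m₀ ha ha' hp hp' h b₀ l₀
  exact ES496.expSep_core496 ι ι' a a' b l b' l' R m₀ ha ha' (fun i => hp i) (fun j => hp' j)
    h b₀ l₀

end Fermat.Agent.LT.T7.H496

end
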