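import Fermat.Agent.LT.T7.H496.TwistNonzero

/-!
# Row LT, tower T7, leaf T7.01 (helper496), OFF-MAIN: `TwistAll` is PROVED

`twistAll496 : Fermat.Agent.LT.T7.TwistAll` (VERBATIM the Prop of `LT/T7/Spec.lean`,
origin/helper797@31d807178 sha256 41dbc37a6d3e401a = v0, and v1.2 d4e07e123 sha256 76a196044a64b920),
unconditional.

The twisted form is `g ↦ φ (g · (det g))` (scalar matrix of the idele `det g`): no central
character is constructed.  Level unchanged, eigenvalues `(b_v a_v, b_v ^ 3)` at EVERY `v ∤ 𝔫`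
(exceptional set `∅`).
-/

set_option autoImplicit false

open IsDedekindDomain NumberField AutomorphicForm

noncomputable section

namespace Fermat.Agent.LT.T7.H496

open Fermat.Agent.LT.H556 Fermat.Agent.LT.H556.A0

/-- **LEAF T7.01: `TwistC K` for every number field `K`.** -/
theorem twistC496 (K : Type) [Field K] [NumberField K] : Fermat.Agent.LT.T7.TwistC K := by
  intro π hπ
  obtain ⟨φ, hφ⟩ := hπ
  exact ⟨twPi496 π, ⟨fun g => φ (tw496 g), twistFields496 π φ hφ (twist_ne_zero496 hφ)⟩,
    ∅, fun v _ => ⟨rfl, rfl⟩⟩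

/-- **LEAF T7.01: `TwistAll`.** -/
theorem twistAll496 : Fermat.Agent.LT.T7.TwistAll := fun K _ _ => twistC496 K

end Fermat.Agent.LT.T7.H496

end
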