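import Fermat.Agent.LT.T7.H496.TwistFields
import Fermat.Agent.LT.H767.StrongApprox

/-!
# Row LT, tower T7, leaf T7.01 `TwistC` (helper496), OFF-MAIN: the twisted form is not zero

`twist_ne_zero496 : IsSph0CuspFormFor π φ → ∃ g, φ (tw496 g) ≠ 0`.

Route: `φ (g₀) ≠ 0`; pick `d ∈ 𝔫`, `d ≠ 0` (`𝔫 = π.level`).  Weak approximation at the places
dividing `d` (`exists_rat_near496`, from helper767's additive strong approximation
`LT/H767/StrongApprox.lean`, byte-identical copy) gives `α ∈ Kˣ` with `α⁻¹ det g₀ ≡ 1 mod d` there;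
cube roots at the infinite places give an idele `t`, trivial at the finite places, with
`t³ det g₀ = α` at infinity.  Then `tw496 (g₀ t) = g₀ · (t³ det g₀)` and the scalar idele
`t³ det g₀ = α · y`, `y` finite and `≡ 1` at the places dividing `d`, acts on `φ` by a non-zero
constant (`ActsBy496`): `α` by left invariance, the unit part of `y` by the level group (the
closure of `𝔫` in `K_v` contains the ball of radius `|d|_v`, `mem_idealClosure_of_le496`), and
the local ideles at the finitely many `v ∤ d` where `y_v` is not a unit by the `S_v`-eigenvalue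
`b_v ≠ 0`.
-/

set_option autoImplicit false

open IsDedekindDomain NumberField AutomorphicForm
open scoped MatrixGroups

noncomputable section

namespace Fermat.Agent.LT.T7.H496

open Fermat.Agent.LT.H556 Fermat.Agent.LT.H556.A0

variable {K : Type} [Field K] [NumberField K]

/-! ## Local ideles at a finite place -/

open scoped Classical in
/-- The adele with component `c` at the finite place `v` and `1` at every other place. -/
def locFHom496 (v : HeightOneSpectrum (𝓞 K)) : v.adicCompletion K →* Adl K where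
  toFun c := ((1 : InfiniteAdeleRing K),
    (RestrictedProduct.mulSingle (fun v : HeightOneSpectrum (𝓞 K) => v.adicCompletionIntegers K)
      v c : FiniteAdeleRing (𝓞 K) K))
  map_one' := by
    refine Prod.ext rfl ?_
    exact RestrictedProduct.mulSingle_one _ v
  map_mul' a b := by
    refine Prod.ext (one_mul 1).symm ?_
    exact RestrictedProduct.mulSingle_mul _ v a b

/-- The idele with component `c` at the finite place `v` and `1` at every other place. -/
def locF496 (v : HeightOneSpectrum (𝓞 K)) : (v.adicCompletion K)ˣ →* (Adl K)ˣ :=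
  Units.map (locFHom496 v)

theorem evF_locF_same496 (v : HeightOneSpectrum (𝓞 K)) (c : (v.adicCompletion K)ˣ) :
    evF496 v ((locF496 v c : (Adl K)ˣ) : Adl K) = c := by
  classical
  exact RestrictedProduct.mulSingle_eq_same
    (fun v : HeightOneSpectrum (𝓞 K) => v.adicCompletionIntegers K) v _

theorem evF_locF_ne496 {v v' : HeightOneSpectrum (𝓞 K)} (h : v' ≠ v)
    (c : (v.adicCompletion K)ˣ) :
    evF496 v' ((locF496 v c : (Adl K)ˣ) : Adl K) = 1 := by
  classical
  exact RestrictedProduct.mulSingle_eq_of_ne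
    (fun v : HeightOneSpectrum (𝓞 K) => v.adicCompletionIntegers K) _ h

theorem evI_locF496 (v : HeightOneSpectrum (𝓞 K)) (w : InfinitePlace K)
    (c : (v.adicCompletion K)ˣ) :
    evI496 w ((locF496 v c : (Adl K)ˣ) : Adl K) = 1 := rfl

/-! ## Components of scalar matrices -/

theorem trivAtInf_sc496 {w : InfinitePlace K} {x : (Adl K)ˣ} (h : evI496 w (x : Adl K) = 1) :
    TrivAtInf w (sc496 x) := by
  rw [trivAtInf_iff496, rawInf_sc496, h]
  exact Matrix.diagonal_one

theorem trivAtFin_sc496 {v : HeightOneSpectrum (𝓞 K)} {x : (Adl K)ˣ}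
    (h : evF496 v (x : Adl K) = 1) : TrivAtFin v (sc496 x) := by
  rw [trivAtFin_iff496, finComp_sc496, h]
  exact Matrix.diagonal_one

theorem isLocalAtFin_sc_locF496 (v : HeightOneSpectrum (𝓞 K)) (c : (v.adicCompletion K)ˣ) :
    IsLocalAtFin v (sc496 (locF496 v c)) :=
  ⟨fun w => trivAtInf_sc496 (evI_locF496 v w c),
    fun _ hv' => trivAtFin_sc496 (evF_locF_ne496 hv' c)⟩

theorem isScalarUniformizerAt_sc_locF496 (v : HeightOneSpectrum (𝓞 K))
    (c : (v.adicCompletion K)ˣ)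
    (hc : Valued.v (c : v.adicCompletion K) = WithZero.exp (-1 : ℤ)) :
    IsScalarUniformizerAt v (sc496 (locF496 v c)) :=
  ⟨isLocalAtFin_sc_locF496 v c, c, hc, by rw [finComp_sc496, evF_locF_same496]⟩

end Fermat.Agent.LT.T7.H496

namespace Fermat.Agent.LT.T7.H496

open Fermat.Agent.LT.H556 Fermat.Agent.LT.H556.A0 Fermat.Agent.LT.H767
open IsDedekindDomain.HeightOneSpectrum

variable {K : Type} [Field K] [NumberField K]

/-! ## The closure of the level ideal contains a ball -/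

/-- The image of `d : 𝓞 K` in `K_v`. -/
def imF496 (v : HeightOneSpectrum (𝓞 K)) (d : 𝓞 K) : v.adicCompletion K :=
  algebraMap K (v.adicCompletion K) (algebraMap (𝓞 K) K d)

theorem imF496_ne_zero (v : HeightOneSpectrum (𝓞 K)) {d : 𝓞 K} (hd : d ≠ 0) :
    imF496 v d ≠ 0 := by
  unfold imF496
  have hdK : (algebraMap (𝓞 K) K d) ≠ 0 := by simpa using hd
  simpa using hdK

theorem mem_idealClosure_of_le496 (𝔫 : Ideal (𝓞 K)) (v : HeightOneSpectrum (𝓞 K))
    {d : 𝓞 K} (hd𝔫 : d ∈ 𝔫) (hd : d ≠ 0) (x : v.adicCompletion K)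
    (hx : Valued.v x ≤ Valued.v (imF496 v d)) : x ∈ idealClosure 𝔫 v := by
  have hD0 : imF496 v d ≠ 0 := imF496_ne_zero v hd
  have hDpos : 0 < ‖imF496 v d‖ := norm_pos_iff.mpr hD0
  rw [idealClosure, Metric.mem_closure_iff]
  intro ε hε
  -- a small element of `𝓞 K`
  obtain ⟨ϖ, hϖ, hϖ0⟩ := Submodule.exists_mem_ne_zero_of_ne_bot v.ne_bot
  have hP1 : ‖imF496 v ϖ‖ < 1 := by
    rw [Valued.toNormedField.norm_lt_one_iff]
    unfold imF496
    rw [valued_algebraMap]
    exact (valuation_lt_one_iff_mem v ϖ).mpr hϖ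
  obtain ⟨n, hn⟩ := exists_pow_lt_of_lt_one (show (0 : ℝ) < ε / ‖imF496 v d‖ by positivity) hP1
  have he0 : ϖ ^ n ≠ 0 := pow_ne_zero _ hϖ0
  -- `x / D` is integral
  have hx' : Valued.v (x / imF496 v d) ≤ 1 := by
    rw [map_div₀]
    exact div_le_one_of_le₀ hx (by simp)
  obtain ⟨y, hy⟩ := exists_int_sub_lt K v (x / imF496 v d) hx' (ϖ ^ n) he0
  refine ⟨imF496 v (d * y), ⟨d * y, 𝔫.mul_mem_right y hd𝔫, rfl⟩, ?_⟩
  have hy' : ‖imF496 v y - x / imF496 v d‖ < ‖imF496 v (ϖ ^ n)‖ :=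
    Valued.toNormedField.norm_lt_iff.mpr hy
  have hpow : ‖imF496 v (ϖ ^ n)‖ = ‖imF496 v ϖ‖ ^ n := by
    unfold imF496
    rw [map_pow, map_pow, norm_pow]
  have hkey : x - imF496 v (d * y) = imF496 v d * (x / imF496 v d - imF496 v y) := by
    have : imF496 v (d * y) = imF496 v d * imF496 v y := by
      unfold imF496
      rw [map_mul, map_mul]
    rw [this]
    field_simp
  rw [dist_eq_norm, hkey, norm_mul, norm_sub_rev]
  calc ‖imF496 v d‖ * ‖imF496 v y - x / imF496 v d‖
      < ‖imF496 v d‖ * ‖imF496 v (ϖ ^ n)‖ := mul_lt_mul_of_pos_left hy' hDpos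
    _ = ‖imF496 v d‖ * ‖imF496 v ϖ‖ ^ n := by rw [hpow]
    _ < ‖imF496 v d‖ * (ε / ‖imF496 v d‖) := mul_lt_mul_of_pos_left hn hDpos
    _ = ε := by field_simp

end Fermat.Agent.LT.T7.H496

namespace Fermat.Agent.LT.T7.H496

open Fermat.Agent.LT.H556 Fermat.Agent.LT.H556.A0 Fermat.Agent.LT.H767
open IsDedekindDomain.HeightOneSpectrum

variable {K : Type} [Field K] [NumberField K]

/-! ## Scalar elements of the level group -/

theorem sc496_inv (x : (Adl K)ˣ) : (sc496 x)⁻¹ = sc496 x⁻¹ := (map_inv sc496 x).symm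

theorem inLevelGroup_sc496 (𝔫 : Ideal (𝓞 K)) (y : (Adl K)ˣ)
    (hI : ∀ w : InfinitePlace K, evI496 w (y : Adl K) = 1)
    (hF : ∀ v : HeightOneSpectrum (𝓞 K), evF496 v (y : Adl K) - 1 ∈ idealClosure 𝔫 v ∧
      evF496 v ((y⁻¹ : (Adl K)ˣ) : Adl K) - 1 ∈ idealClosure 𝔫 v) :
    InLevelGroup 𝔫 (sc496 y) := by
  refine ⟨fun w => trivAtInf_sc496 (hI w), fun v i j => ⟨?_, ?_⟩⟩
  · rw [finComp_sc496]
    exact diagonal_sub_one_mem496 _ _ _ (hF v).1 i j
  · rw [sc496_inv, finComp_sc496]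
    exact diagonal_sub_one_mem496 _ _ _ (hF v).2 i j

/-! ## The predicate `P`: the scalar idele acts on `φ` by a non-zero constant -/

/-- `φ (G · x) = c · φ (G)` for a non-zero constant `c`. -/
def ActsBy496 (φ : G K → ℂ) (x : (Adl K)ˣ) : Prop :=
  ∃ c : ℂ, c ≠ 0 ∧ ∀ g : G K, φ (g * sc496 x) = c * φ g

theorem actsBy_one496 (φ : G K → ℂ) : ActsBy496 φ 1 :=
  ⟨1, one_ne_zero, fun g => by rw [map_one, mul_one, one_mul]⟩

theorem ActsBy496.mul {φ : G K → ℂ} {x y : (Adl K)ˣ} (hx : ActsBy496 φ x)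
    (hy : ActsBy496 φ y) : ActsBy496 φ (x * y) := by
  obtain ⟨c, hc, hx⟩ := hx
  obtain ⟨c', hc', hy⟩ := hy
  refine ⟨c' * c, mul_ne_zero hc' hc, fun g => ?_⟩
  rw [map_mul, ← mul_assoc, hy, hx, mul_assoc]

theorem ActsBy496.inv {φ : G K → ℂ} {x : (Adl K)ˣ} (hx : ActsBy496 φ x) :
    ActsBy496 φ x⁻¹ := by
  obtain ⟨c, hc, hx⟩ := hx
  refine ⟨c⁻¹, inv_ne_zero hc, fun g => ?_⟩
  have h := hx (g * sc496 x⁻¹)
  rw [mul_assoc, ← map_mul, inv_mul_cancel, map_one, mul_one] at h
  rw [h, ← mul_assoc, inv_mul_cancel₀ hc, one_mul]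

theorem ActsBy496.pow {φ : G K → ℂ} {x : (Adl K)ˣ} (hx : ActsBy496 φ x) (n : ℕ) :
    ActsBy496 φ (x ^ n) := by
  induction n with
  | zero => rw [pow_zero]; exact actsBy_one496 φ
  | succ n ih => rw [pow_succ]; exact ih.mul hx

theorem ActsBy496.zpow {φ : G K → ℂ} {x : (Adl K)ˣ} (hx : ActsBy496 φ x) (n : ℤ) :
    ActsBy496 φ (x ^ n) := by
  cases n with
  | ofNat n => rw [Int.ofNat_eq_natCast, zpow_natCast]; exact hx.pow n
  | negSucc n => rw [zpow_negSucc]; exact (hx.pow _).inv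

/-- Non-vanishing is preserved. -/
theorem ActsBy496.ne_zero {φ : G K → ℂ} {x : (Adl K)ˣ} (hx : ActsBy496 φ x) {g : G K}
    (hg : φ g ≠ 0) : φ (g * sc496 x) ≠ 0 := by
  obtain ⟨c, hc, hx⟩ := hx
  rw [hx]
  exact mul_ne_zero hc hg

/-- The principal idele of `α ∈ Kˣ`. -/
def ratU496 : Kˣ →* (Adl K)ˣ := Units.map (algebraMap K (Adl K)).toMonoidHom

theorem sc496_ratU (α : Kˣ) :
    sc496 (ratU496 α) = Matrix.GeneralLinearGroup.map (algebraMap K (Adl K))
      (Matrix.GeneralLinearGroup.scalar (Fin 2) α) := by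
  apply Units.ext
  refine Matrix.ext fun i j => ?_
  rw [Matrix.GeneralLinearGroup.map_apply]
  simp only [Matrix.GeneralLinearGroup.coe_scalar, Matrix.scalar_apply, Matrix.diagonal_apply]
  split_ifs
  · rfl
  · rw [map_zero]

variable {π : HeckeEigensystem K ℂ} {φ : G K → ℂ}

theorem actsBy_ratU496 (hφ : IsSph0CuspFormFor π φ) (α : Kˣ) : ActsBy496 φ (ratU496 α) := by
  refine ⟨1, one_ne_zero, fun g => ?_⟩
  rw [one_mul, ← sc496_comm, sc496_ratU]
  exact hφ.left_inv _ _

theorem actsBy_of_level496 (hφ : IsSph0CuspFormFor π φ) (y : (Adl K)ˣ)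
    (hy : InLevelGroup π.level (sc496 y)) : ActsBy496 φ y :=
  ⟨1, one_ne_zero, fun g => by rw [one_mul]; exact hφ.level_inv _ hy g⟩

/-- A uniformiser of `K_v` as a unit. -/
theorem exists_unif496 (v : HeightOneSpectrum (𝓞 K)) :
    ∃ c : (v.adicCompletion K)ˣ, Valued.v (c : v.adicCompletion K) = WithZero.exp (-1 : ℤ) := by
  obtain ⟨ϖ, hϖ⟩ := v.valuation_exists_uniformizer K
  have hval : Valued.v (algebraMap K (v.adicCompletion K) ϖ) = WithZero.exp (-1 : ℤ) := by
    rw [valued_algebraMap, hϖ]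
  have hne : algebraMap K (v.adicCompletion K) ϖ ≠ 0 := by
    intro h
    rw [h, map_zero] at hval
    exact WithZero.coe_ne_zero hval.symm
  exact ⟨Units.mk0 _ hne, hval⟩

theorem b_ne_zero496 (hφ : IsSph0CuspFormFor π φ) (v : HeightOneSpectrum (𝓞 K))
    (hv : ¬ v.asIdeal ∣ π.level) : π.b v ≠ 0 := by
  intro hb
  obtain ⟨c, hc⟩ := exists_unif496 v
  obtain ⟨g, hg⟩ := hφ.ne_zero
  have h := (hφ.hecke v hv).2 _ (isScalarUniformizerAt_sc_locF496 v c hc)
    (g * (sc496 (locF496 v c))⁻¹)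
  rw [inv_mul_cancel_right, hb, zero_mul] at h
  exact hg h

theorem actsBy_unif496 (hφ : IsSph0CuspFormFor π φ) (v : HeightOneSpectrum (𝓞 K))
    (hv : ¬ v.asIdeal ∣ π.level) (c : (v.adicCompletion K)ˣ)
    (hc : Valued.v (c : v.adicCompletion K) = WithZero.exp (-1 : ℤ)) :
    ActsBy496 φ (locF496 v c) :=
  ⟨π.b v, b_ne_zero496 hφ v hv,
    fun g => (hφ.hecke v hv).2 _ (isScalarUniformizerAt_sc_locF496 v c hc) g⟩

end Fermat.Agent.LT.T7.H496

namespace Fermat.Agent.LT.T7.H496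

open Fermat.Agent.LT.H556 Fermat.Agent.LT.H556.A0 Fermat.Agent.LT.H767
open IsDedekindDomain.HeightOneSpectrum

variable {K : Type} [Field K] [NumberField K]
variable {π : HeckeEigensystem K ℂ} {φ : G K → ℂ}

/-! ## Ideles with unit components -/

theorem imF496_le_one (v : HeightOneSpectrum (𝓞 K)) (d : 𝓞 K) :
    Valued.v (imF496 v d) ≤ 1 := valued_algebraMap_int_le_one K v d

theorem evF_inv496 (v : HeightOneSpectrum (𝓞 K)) (y : (Adl K)ˣ) :
    evF496 v ((y⁻¹ : (Adl K)ˣ) : Adl K) = (evF496 v (y : Adl K))⁻¹ := by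
  have h : evF496 v ((y⁻¹ : (Adl K)ˣ) : Adl K) * evF496 v (y : Adl K) = 1 := by
    rw [← map_mul, Units.inv_mul, map_one]
  exact eq_inv_of_mul_eq_one_left h

theorem evI_inv496 (w : InfinitePlace K) (y : (Adl K)ˣ) :
    evI496 w ((y⁻¹ : (Adl K)ˣ) : Adl K) = (evI496 w (y : Adl K))⁻¹ := by
  have h : evI496 w ((y⁻¹ : (Adl K)ˣ) : Adl K) * evI496 w (y : Adl K) = 1 := by
    rw [← map_mul, Units.inv_mul, map_one]
  exact eq_inv_of_mul_eq_one_left h

theorem evF_ne_zero496 (v : HeightOneSpectrum (𝓞 K)) (y : (Adl K)ˣ) :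
    evF496 v (y : Adl K) ≠ 0 := by
  intro h
  have h1 : evF496 v ((y⁻¹ : (Adl K)ˣ) : Adl K) * evF496 v (y : Adl K) = 1 := by
    rw [← map_mul, Units.inv_mul, map_one]
  rw [h, mul_zero] at h1
  exact zero_ne_one h1

theorem evI_ne_zero496 (w : InfinitePlace K) (y : (Adl K)ˣ) :
    evI496 w (y : Adl K) ≠ 0 := by
  intro h
  have h1 : evI496 w ((y⁻¹ : (Adl K)ˣ) : Adl K) * evI496 w (y : Adl K) = 1 := by
    rw [← map_mul, Units.inv_mul, map_one]
  rw [h, mul_zero] at h1
  exact zero_ne_one h1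

/-- The condition at the places dividing `d`. -/
def NearOne496 (d : 𝓞 K) (y : (Adl K)ˣ) : Prop :=
  ∀ v : HeightOneSpectrum (𝓞 K), Valued.v (imF496 v d) < 1 →
    Valued.v (evF496 v (y : Adl K) - 1) ≤ Valued.v (imF496 v d) ∧
    Valued.v (evF496 v ((y⁻¹ : (Adl K)ˣ) : Adl K) - 1) ≤ Valued.v (imF496 v d)

theorem valued_sub_one_le496 {v : HeightOneSpectrum (𝓞 K)} {x : v.adicCompletion K}
    (hx : Valued.v x = 1) : Valued.v (x - 1) ≤ 1 := by
  refine le_trans (Valuation.map_sub _ _ _) ?_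
  rw [hx, map_one, max_self]

/-- **Unit case**: an idele with trivial infinite components, unit finite components and
`≡ 1` at the places dividing `d ∈ 𝔫` is in the level group. -/
theorem inLevelGroup_of_units496 (𝔫 : Ideal (𝓞 K)) {d : 𝓞 K} (hd𝔫 : d ∈ 𝔫) (hd : d ≠ 0)
    (y : (Adl K)ˣ) (hI : ∀ w : InfinitePlace K, evI496 w (y : Adl K) = 1)
    (hU : ∀ v : HeightOneSpectrum (𝓞 K), Valued.v (evF496 v (y : Adl K)) = 1)
    (hN : NearOne496 d y) : InLevelGroup 𝔫 (sc496 y) := by
  refine inLevelGroup_sc496 𝔫 y hI fun v => ?_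
  rcases lt_or_eq_of_le (imF496_le_one v d) with hlt | heq
  · exact ⟨mem_idealClosure_of_le496 𝔫 v hd𝔫 hd _ (hN v hlt).1,
      mem_idealClosure_of_le496 𝔫 v hd𝔫 hd _ (hN v hlt).2⟩
  · refine ⟨mem_idealClosure_of_le496 𝔫 v hd𝔫 hd _ ?_,
      mem_idealClosure_of_le496 𝔫 v hd𝔫 hd _ ?_⟩
    · rw [heq]
      exact valued_sub_one_le496 (hU v)
    · rw [heq]
      apply valued_sub_one_le496
      rw [evF_inv496, map_inv₀, hU v, inv_one]

/-- At a place dividing the level, `d ∈ 𝔫` is not a unit. -/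
theorem imF_lt_one_of_dvd496 {𝔫 : Ideal (𝓞 K)} {d : 𝓞 K} (hd𝔫 : d ∈ 𝔫)
    {v : HeightOneSpectrum (𝓞 K)} (hv : v.asIdeal ∣ 𝔫) : Valued.v (imF496 v d) < 1 := by
  unfold imF496
  rw [valued_algebraMap]
  exact (valuation_lt_one_iff_mem v d).mpr (Ideal.le_of_dvd hv hd𝔫)

/-- **Local ideles at a place not dividing `d`** act by a non-zero constant. -/
theorem actsBy_locF496 (hφ : IsSph0CuspFormFor π φ) {d : 𝓞 K} (hd𝔫 : d ∈ π.level)
    (hd : d ≠ 0) (v : HeightOneSpectrum (𝓞 K)) (hv : Valued.v (imF496 v d) = 1)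
    (c : (v.adicCompletion K)ˣ) : ActsBy496 φ (locF496 v c) := by
  have hvn : ¬ v.asIdeal ∣ π.level := fun h => (imF_lt_one_of_dvd496 hd𝔫 h).ne hv
  obtain ⟨ϖ, hϖ⟩ := exists_unif496 v
  have hc0 : Valued.v (c : v.adicCompletion K) ≠ 0 := (Valuation.ne_zero_iff _).mpr c.ne_zero
  set m : ℤ := WithZero.log (Valued.v (c : v.adicCompletion K)) with hm
  have hcm : Valued.v (c : v.adicCompletion K) = WithZero.exp m := (WithZero.exp_log hc0).symm
  -- the unit part
  set u : (v.adicCompletion K)ˣ := c * ϖ ^ m with hu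
  have huval : Valued.v (u : v.adicCompletion K) = 1 := by
    rw [hu, Units.val_mul, Units.val_zpow_eq_zpow_val, map_mul, map_zpow₀, hcm, hϖ,
      ← WithZero.exp_zsmul, ← WithZero.exp_add]
    simp
  have hcu : c = u * (ϖ ^ m)⁻¹ := by rw [hu, mul_inv_cancel_right]
  rw [hcu, map_mul, map_inv, map_zpow]
  refine ActsBy496.mul ?_ ((actsBy_unif496 hφ v hvn ϖ hϖ).zpow m).inv
  apply actsBy_of_level496 hφ
  refine inLevelGroup_of_units496 π.level hd𝔫 hd _ (fun w => evI_locF496 v w u) (fun v' => ?_)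
    (fun v' hv' => ?_)
  · by_cases h : v' = v
    · subst h
      rw [evF_locF_same496]
      exact huval
    · rw [evF_locF_ne496 h, map_one]
  · have h : v' ≠ v := by
      rintro rfl
      exact hv'.ne hv
    rw [evF_inv496, evF_locF_ne496 h, inv_one, sub_self, map_zero]
    exact ⟨zero_le, zero_le⟩

end Fermat.Agent.LT.T7.H496

namespace Fermat.Agent.LT.T7.H496

open Fermat.Agent.LT.H556 Fermat.Agent.LT.H556.A0 Fermat.Agent.LT.H767
open IsDedekindDomain.HeightOneSpectrum

variable {K : Type} [Field K] [NumberField K]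
variable {π : HeckeEigensystem K ℂ} {φ : G K → ℂ}

/-! ## Finite ideles which are `≡ 1` at the places dividing `d` -/

/-- The finite places where the idele `y` is not a unit. -/
def badSet496 (y : (Adl K)ˣ) : Set (HeightOneSpectrum (𝓞 K)) :=
  {v | Valued.v (evF496 v (y : Adl K)) ≠ 1}

theorem badSet_finite496 (y : (Adl K)ˣ) : (badSet496 y).Finite := by
  have h1 : {v : HeightOneSpectrum (𝓞 K) | ¬ evF496 v (y : Adl K)
      ∈ v.adicCompletionIntegers K}.Finite :=
    Filter.eventually_cofinite.mp (y : Adl K).2.2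
  have h2 : {v : HeightOneSpectrum (𝓞 K) | ¬ evF496 v ((y⁻¹ : (Adl K)ˣ) : Adl K)
      ∈ v.adicCompletionIntegers K}.Finite :=
    Filter.eventually_cofinite.mp ((y⁻¹ : (Adl K)ˣ) : Adl K).2.2
  refine (h1.union h2).subset fun v hv => ?_
  by_contra hcon
  rw [Set.mem_union, not_or] at hcon
  obtain ⟨ha, hb⟩ := hcon
  simp only [Set.mem_ofPred_eq, not_not] at ha hb
  have ha' : Valued.v (evF496 v (y : Adl K)) ≤ 1 := ha
  have hb' : Valued.v (evF496 v ((y⁻¹ : (Adl K)ˣ) : Adl K)) ≤ 1 := hb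
  rw [evF_inv496, map_inv₀] at hb'
  have h0 : Valued.v (evF496 v (y : Adl K)) ≠ 0 :=
    (Valuation.ne_zero_iff _).mpr (evF_ne_zero496 v y)
  have hge : 1 ≤ Valued.v (evF496 v (y : Adl K)) := by
    rwa [inv_le_one₀ (zero_lt_iff.mpr h0)] at hb'
  exact hv (le_antisymm ha' hge)

/-- The component of an idele at `v`, as a unit. -/
def evFU496 (v : HeightOneSpectrum (𝓞 K)) : (Adl K)ˣ →* (v.adicCompletion K)ˣ :=
  Units.map (evF496 v).toMonoidHom

theorem evFU496_coe (v : HeightOneSpectrum (𝓞 K)) (y : (Adl K)ˣ) :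
    ((evFU496 v y : (v.adicCompletion K)ˣ) : v.adicCompletion K) = evF496 v (y : Adl K) := rfl

theorem evF_mul496 (v : HeightOneSpectrum (𝓞 K)) (x y : (Adl K)ˣ) :
    evF496 v ((x * y : (Adl K)ˣ) : Adl K) = evF496 v (x : Adl K) * evF496 v (y : Adl K) := by
  rw [Units.val_mul, map_mul]

theorem evI_mul496 (w : InfinitePlace K) (x y : (Adl K)ˣ) :
    evI496 w ((x * y : (Adl K)ˣ) : Adl K) = evI496 w (x : Adl K) * evI496 w (y : Adl K) := by
  rw [Units.val_mul, map_mul]

/-- At a place where `y ≡ 1 mod d`, `d` a non-unit, `y` is a unit. -/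
theorem valued_eq_one_of_near496 {v : HeightOneSpectrum (𝓞 K)} {x D : v.adicCompletion K}
    (hD : Valued.v D < 1) (hx : Valued.v (x - 1) ≤ Valued.v D) : Valued.v x = 1 := by
  have h1 : Valued.v (x - 1) < Valued.v (1 : v.adicCompletion K) := by
    rw [map_one]
    exact lt_of_le_of_lt hx hD
  have := Valuation.map_eq_of_sub_lt _ h1
  rw [this, map_one]

/-- **Finite ideles near `1` at the places dividing `d`** act by a non-zero constant. -/
theorem actsBy_of_nearOne496 (hφ : IsSph0CuspFormFor π φ) {d : 𝓞 K} (hd𝔫 : d ∈ π.level)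
    (hd : d ≠ 0) :
    ∀ (n : ℕ) (y : (Adl K)ˣ), (badSet_finite496 y).toFinset.card = n →
      (∀ w : InfinitePlace K, evI496 w (y : Adl K) = 1) → NearOne496 d y → ActsBy496 φ y := by
  classical
  intro n
  induction n with
  | zero =>
    intro y hcard hI hN
    apply actsBy_of_level496 hφ
    refine inLevelGroup_of_units496 π.level hd𝔫 hd y hI (fun v => ?_) hN
    by_contra hv
    have : v ∈ (badSet_finite496 y).toFinset := (Set.Finite.mem_toFinset _).mpr hv
    rw [Finset.card_eq_zero] at hcard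
    rw [hcard] at this
    exact (Finset.notMem_empty v) this
  | succ n ih =>
    intro y hcard hI hN
    have hne : (badSet_finite496 y).toFinset.Nonempty := by
      rw [← Finset.card_pos, hcard]
      exact Nat.succ_pos n
    obtain ⟨v₀, hv₀⟩ := hne
    have hv₀' : Valued.v (evF496 v₀ (y : Adl K)) ≠ 1 := (Set.Finite.mem_toFinset _).mp hv₀
    -- `v₀` does not divide `d`
    have hv₀d : Valued.v (imF496 v₀ d) = 1 := by
      rcases lt_or_eq_of_le (imF496_le_one v₀ d) with hlt | heq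
      · exact absurd (valued_eq_one_of_near496 hlt (hN v₀ hlt).1) hv₀'
      · exact heq
    set ℓ : (Adl K)ˣ := locF496 v₀ (evFU496 v₀ y) with hℓ
    set y' : (Adl K)ˣ := y * ℓ⁻¹ with hy'
    have hyy' : y = y' * ℓ := by rw [hy', inv_mul_cancel_right]
    have hcomp_same : evF496 v₀ (y' : Adl K) = 1 := by
      rw [hy', evF_mul496, evF_inv496, hℓ, evF_locF_same496, evFU496_coe]
      exact mul_inv_cancel₀ (evF_ne_zero496 v₀ y)
    have hcomp_ne : ∀ v, v ≠ v₀ → evF496 v (y' : Adl K) = evF496 v (y : Adl K) := by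
      intro v hv
      rw [hy', evF_mul496, evF_inv496, hℓ, evF_locF_ne496 hv, inv_one, mul_one]
    have hbad : (badSet_finite496 y').toFinset = (badSet_finite496 y).toFinset.erase v₀ := by
      ext v
      rw [Finset.mem_erase, Set.Finite.mem_toFinset, Set.Finite.mem_toFinset]
      unfold badSet496
      simp only [Set.mem_ofPred_eq]
      by_cases hv : v = v₀
      · subst hv
        rw [hcomp_same, map_one]
        simp
      · rw [hcomp_ne v hv]
        simp [hv]
    have hcard' : (badSet_finite496 y').toFinset.card = n := by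
      rw [hbad, Finset.card_erase_of_mem hv₀, hcard]
      rfl
    have hI' : ∀ w : InfinitePlace K, evI496 w (y' : Adl K) = 1 := by
      intro w
      rw [hy', evI_mul496, evI_inv496, hℓ, evI_locF496, inv_one, mul_one, hI w]
    have hN' : NearOne496 d y' := by
      intro v hv
      have hvne : v ≠ v₀ := by
        rintro rfl
        exact hv.ne hv₀d
      have h1 := hN v hv
      rw [evF_inv496] at h1 ⊢
      rw [hcomp_ne v hvne]
      exact h1
    rw [hyy']
    exact (ih y' hcard' hI' hN').mul (actsBy_locF496 hφ hd𝔫 hd v₀ hv₀d _)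

end Fermat.Agent.LT.T7.H496

namespace Fermat.Agent.LT.T7.H496

open Fermat.Agent.LT.H556 Fermat.Agent.LT.H556.A0 Fermat.Agent.LT.H767
open IsDedekindDomain.HeightOneSpectrum

variable {K : Type} [Field K] [NumberField K]
variable {π : HeckeEigensystem K ℂ} {φ : G K → ℂ}

/-! ## Weak approximation at the places dividing `d` -/

theorem evF_ratU496 (v : HeightOneSpectrum (𝓞 K)) (α : Kˣ) :
    evF496 v ((ratU496 α : (Adl K)ˣ) : Adl K) = algebraMap K (v.adicCompletion K) (α : K) := rfl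

/-- **Weak approximation**: every idele is, at the places dividing `d`, congruent to a principal
idele modulo `d`, multiplicatively. -/
theorem exists_rat_near496 (d : 𝓞 K) (hd : d ≠ 0) (x : (Adl K)ˣ) :
    ∃ α : Kˣ, NearOne496 d ((ratU496 α)⁻¹ * x) := by
  -- a denominator for `x⁻¹`
  obtain ⟨E, hE0, hE⟩ := exists_denominator K ((x⁻¹ : (Adl K)ˣ) : Adl K).2
  have hEx : ∀ v : HeightOneSpectrum (𝓞 K),
      Valued.v (imF496 v E) ≤ Valued.v (evF496 v (x : Adl K)) := by
    intro v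
    have h := hE v
    have h2 : (((x⁻¹ : (Adl K)ˣ) : Adl K).2 v) = (evF496 v (x : Adl K))⁻¹ := evF_inv496 v x
    rw [h2, map_mul, map_inv₀] at h
    have h0 : Valued.v (evF496 v (x : Adl K)) ≠ 0 :=
      (Valuation.ne_zero_iff _).mpr (evF_ne_zero496 v x)
    rwa [← div_eq_mul_inv, div_le_one₀ (zero_lt_iff.mpr h0)] at h
  -- strong approximation for `x / (d E)`
  set q : K := (algebraMap (𝓞 K) K (d * E))⁻¹ with hq
  have hdE : algebraMap (𝓞 K) K (d * E) ≠ 0 := by
    have : d * E ≠ 0 := mul_ne_zero hd hE0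
    simpa using this
  obtain ⟨k, hk⟩ := exists_sub_mem_integers K
    ((x : Adl K).2 * algebraMap K (FiniteAdeleRing (𝓞 K) K) q)
  set α₀ : K := algebraMap (𝓞 K) K (d * E) * k with hα₀
  have hkey : ∀ v : HeightOneSpectrum (𝓞 K),
      Valued.v (evF496 v (x : Adl K) - algebraMap K (v.adicCompletion K) α₀)
        ≤ Valued.v (imF496 v d) * Valued.v (evF496 v (x : Adl K)) := by
    intro v
    have h := hk v
    have h1 : ((x : Adl K).2 * algebraMap K (FiniteAdeleRing (𝓞 K) K) q) v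
        = evF496 v (x : Adl K) * algebraMap K (v.adicCompletion K) q := rfl
    rw [h1] at h
    have h' : Valued.v (evF496 v (x : Adl K) * algebraMap K (v.adicCompletion K) q
        - algebraMap K (v.adicCompletion K) k) ≤ 1 := h
    have hDE : imF496 v (d * E) = imF496 v d * imF496 v E := by
      unfold imF496
      rw [map_mul, map_mul]
    have hDE0 : imF496 v (d * E) ≠ 0 := imF496_ne_zero v (mul_ne_zero hd hE0)
    have hqv : algebraMap K (v.adicCompletion K) q = (imF496 v (d * E))⁻¹ := by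
      rw [hq, map_inv₀]
      rfl
    have heq : evF496 v (x : Adl K) - algebraMap K (v.adicCompletion K) α₀
        = imF496 v (d * E) * (evF496 v (x : Adl K) * algebraMap K (v.adicCompletion K) q
          - algebraMap K (v.adicCompletion K) k) := by
      rw [hα₀, map_mul, hqv]
      have : algebraMap K (v.adicCompletion K) (algebraMap (𝓞 K) K (d * E))
          = imF496 v (d * E) := rfl
      rw [this]
      field_simp
    rw [heq, map_mul, hDE, map_mul]
    calc Valued.v (imF496 v d) * Valued.v (imF496 v E)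
          * Valued.v (evF496 v (x : Adl K) * algebraMap K (v.adicCompletion K) q
            - algebraMap K (v.adicCompletion K) k)
        ≤ Valued.v (imF496 v d) * Valued.v (imF496 v E) * 1 := mul_le_mul' le_rfl h'
      _ = Valued.v (imF496 v d) * Valued.v (imF496 v E) := mul_one _
      _ ≤ Valued.v (imF496 v d) * Valued.v (evF496 v (x : Adl K)) := mul_le_mul' le_rfl (hEx v)
  have hstrict : ∀ v : HeightOneSpectrum (𝓞 K), Valued.v (imF496 v d) < 1 →
      Valued.v (evF496 v (x : Adl K) - algebraMap K (v.adicCompletion K) α₀)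
        < Valued.v (evF496 v (x : Adl K)) := by
    intro v hv
    have h0 : Valued.v (evF496 v (x : Adl K)) ≠ 0 :=
      (Valuation.ne_zero_iff _).mpr (evF_ne_zero496 v x)
    refine lt_of_le_of_lt (hkey v) ?_
    calc Valued.v (imF496 v d) * Valued.v (evF496 v (x : Adl K))
        < 1 * Valued.v (evF496 v (x : Adl K)) :=
          mul_lt_mul_of_pos_right hv (zero_lt_iff.mpr h0)
      _ = _ := one_mul _
  by_cases hα : α₀ = 0
  · -- no place divides `d`
    refine ⟨1, fun v hv => ?_⟩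
    have := hstrict v hv
    rw [hα, map_zero, sub_zero] at this
    exact absurd this (lt_irrefl _)
  · refine ⟨Units.mk0 α₀ hα, fun v hv => ?_⟩
    set X : v.adicCompletion K := evF496 v (x : Adl K) with hX
    set A : v.adicCompletion K := algebraMap K (v.adicCompletion K) α₀ with hA
    have hX0 : X ≠ 0 := evF_ne_zero496 v x
    have hA0 : A ≠ 0 := by
      rw [hA]
      intro h
      have := (map_eq_zero _).mp h
      exact hα this
    have hvX0 : Valued.v X ≠ 0 := (Valuation.ne_zero_iff _).mpr hX0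
    have hAX : Valued.v A = Valued.v X := by
      apply Valuation.map_eq_of_sub_lt
      rw [Valuation.map_sub_swap]
      exact hstrict v hv
    have hcomp : evF496 v (((ratU496 (Units.mk0 α₀ hα))⁻¹ * x : (Adl K)ˣ) : Adl K)
        = A⁻¹ * X := by
      rw [evF_mul496, evF_inv496, evF_ratU496]
      rfl
    rw [evF_inv496, hcomp]
    constructor
    · have h1 : A⁻¹ * X - 1 = A⁻¹ * (X - A) := by field_simp
      rw [h1, map_mul, map_inv₀, hAX]
      calc (Valued.v X)⁻¹ * Valued.v (X - A)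
          ≤ (Valued.v X)⁻¹ * (Valued.v (imF496 v d) * Valued.v X) :=
            mul_le_mul' le_rfl (hkey v)
        _ = Valued.v (imF496 v d) := by
            rw [mul_comm (Valued.v (imF496 v d)), ← mul_assoc, inv_mul_cancel₀ hvX0, one_mul]
    · have h1 : (A⁻¹ * X)⁻¹ - 1 = X⁻¹ * (A - X) := by field_simp
      rw [h1, map_mul, map_inv₀, Valuation.map_sub_swap]
      calc (Valued.v X)⁻¹ * Valued.v (X - A)
          ≤ (Valued.v X)⁻¹ * (Valued.v (imF496 v d) * Valued.v X) :=
            mul_le_mul' le_rfl (hkey v)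
        _ = Valued.v (imF496 v d) := by
            rw [mul_comm (Valued.v (imF496 v d)), ← mul_assoc, inv_mul_cancel₀ hvX0, one_mul]

end Fermat.Agent.LT.T7.H496

namespace Fermat.Agent.LT.T7.H496

open Fermat.Agent.LT.H556 Fermat.Agent.LT.H556.A0 Fermat.Agent.LT.H767
open IsDedekindDomain.HeightOneSpectrum

variable {K : Type} [Field K] [NumberField K]
variable {π : HeckeEigensystem K ℂ} {φ : G K → ℂ}

/-! ## Cube roots at the infinite places -/

theorem exists_real_cbrt496 (c : ℝ) : ∃ s : ℝ, s ^ 3 = c := by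
  rcases le_or_gt 0 c with h | h
  · exact ⟨c ^ ((3 : ℕ) : ℝ)⁻¹, Real.rpow_inv_natCast_pow h (by norm_num)⟩
  · refine ⟨-((-c) ^ ((3 : ℕ) : ℝ)⁻¹), ?_⟩
    have h1 : ((-c) ^ ((3 : ℕ) : ℝ)⁻¹) ^ 3 = -c :=
      Real.rpow_inv_natCast_pow (by linarith) (by norm_num)
    have h2 : (-((-c) ^ ((3 : ℕ) : ℝ)⁻¹)) ^ 3 = -(((-c) ^ ((3 : ℕ) : ℝ)⁻¹) ^ 3) := by ring
    rw [h2, h1, neg_neg]

omit [NumberField K] in
theorem exists_cbrt496 (w : InfinitePlace K) (c : w.Completion) :
    ∃ r : w.Completion, r ^ 3 = c := by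
  rcases w.isReal_or_isComplex with hw | hw
  · set e := InfinitePlace.Completion.ringEquivRealOfIsReal hw
    obtain ⟨s, hs⟩ := exists_real_cbrt496 (e c)
    refine ⟨e.symm s, ?_⟩
    rw [← map_pow, hs, RingEquiv.symm_apply_apply]
  · set e := InfinitePlace.Completion.ringEquivComplexOfIsComplex hw
    obtain ⟨s, hs⟩ := IsAlgClosed.exists_pow_nat_eq (e c) (n := 3) (by norm_num)
    refine ⟨e.symm s, ?_⟩
    rw [← map_pow, hs, RingEquiv.symm_apply_apply]

/-- An idele with trivial finite components and prescribed cubes at the infinite places. -/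
theorem exists_infIdele496 (c : (w : InfinitePlace K) → w.Completion) (hc : ∀ w, c w ≠ 0) :
    ∃ t : (Adl K)ˣ, (∀ v : HeightOneSpectrum (𝓞 K), evF496 v (t : Adl K) = 1) ∧
      ∀ w : InfinitePlace K, evI496 w (t : Adl K) ^ 3 = c w := by
  choose r hr using fun w => exists_cbrt496 w (c w)
  have hr0 : ∀ w, r w ≠ 0 := by
    intro w h
    have := hr w
    rw [h] at this
    exact hc w (by rw [← this]; ring)
  let a : Adl K := ((r : InfiniteAdeleRing K), (1 : FiniteAdeleRing (𝓞 K) K))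
  let b : Adl K := (((fun w => (r w)⁻¹) : InfiniteAdeleRing K), (1 : FiniteAdeleRing (𝓞 K) K))
  have hab : a * b = 1 := by
    refine Prod.ext ?_ (one_mul 1)
    funext w
    exact mul_inv_cancel₀ (hr0 w)
  have hba : b * a = 1 := by rw [mul_comm, hab]
  exact ⟨⟨a, b, hab, hba⟩, fun v => rfl, fun w => hr w⟩

/-! ## The non-vanishing -/

theorem evI_pow496 (w : InfinitePlace K) (x : (Adl K)ˣ) (n : ℕ) :
    evI496 w ((x ^ n : (Adl K)ˣ) : Adl K) = evI496 w (x : Adl K) ^ n := by
  rw [Units.val_pow_eq_pow_val, map_pow]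

theorem evF_pow496 (v : HeightOneSpectrum (𝓞 K)) (x : (Adl K)ˣ) (n : ℕ) :
    evF496 v ((x ^ n : (Adl K)ˣ) : Adl K) = evF496 v (x : Adl K) ^ n := by
  rw [Units.val_pow_eq_pow_val, map_pow]

theorem tw496_mul_sc (g : G K) (t : (Adl K)ˣ) :
    tw496 (g * sc496 t) = g * sc496 (t ^ 3 * Matrix.GeneralLinearGroup.det g) := by
  rw [tw496_apply]
  unfold sd496
  rw [map_mul, Matrix.GeneralLinearGroup.det_scalar, Fintype.card_fin, mul_assoc, ← map_mul]
  congr 2
  rw [show (t ^ 3 : (Adl K)ˣ) = t * t ^ 2 from pow_succ' t 2, mul_assoc, mul_comm (t ^ 2)]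

/-- **The twisted form does not vanish identically.** -/
theorem twist_ne_zero496 (hφ : IsSph0CuspFormFor π φ) : ∃ g : G K, φ (tw496 g) ≠ 0 := by
  obtain ⟨g₀, hg₀⟩ := hφ.ne_zero
  obtain ⟨d, hd𝔫, hd⟩ := Submodule.exists_mem_ne_zero_of_ne_bot π.level_ne_bot
  set d₀ : (Adl K)ˣ := Matrix.GeneralLinearGroup.det g₀ with hd₀
  obtain ⟨α, hα⟩ := exists_rat_near496 d hd d₀
  obtain ⟨t, htF, htI⟩ := exists_infIdele496
    (fun w => evI496 w ((ratU496 α : (Adl K)ˣ) : Adl K) * (evI496 w (d₀ : Adl K))⁻¹)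
    (fun w => mul_ne_zero (evI_ne_zero496 w _) (inv_ne_zero (evI_ne_zero496 w _)))
  set y : (Adl K)ˣ := (ratU496 α)⁻¹ * (t ^ 3 * d₀) with hy
  have hI : ∀ w : InfinitePlace K, evI496 w (y : Adl K) = 1 := by
    intro w
    rw [hy, evI_mul496, evI_inv496, evI_mul496, evI_pow496, htI w]
    have h1 := evI_ne_zero496 w (ratU496 α)
    have h2 := evI_ne_zero496 w d₀
    field_simp
  have hFy : ∀ v : HeightOneSpectrum (𝓞 K),
      evF496 v (y : Adl K) = evF496 v (((ratU496 α)⁻¹ * d₀ : (Adl K)ˣ) : Adl K) := by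
    intro v
    rw [hy, evF_mul496, evF_mul496, evF_mul496, evF_pow496, htF v, one_pow, one_mul]
  have hN : NearOne496 d y := by
    intro v hv
    have h := hα v hv
    rw [evF_inv496] at h ⊢
    rw [hFy v]
    exact h
  have hy_acts : ActsBy496 φ y := actsBy_of_nearOne496 hφ hd𝔫 hd _ y rfl hI hN
  have hx_acts : ActsBy496 φ (t ^ 3 * d₀) := by
    have : t ^ 3 * d₀ = ratU496 α * y := by rw [hy, mul_inv_cancel_left]
    rw [this]
    exact (actsBy_ratU496 hφ α).mul hy_acts
  refine ⟨g₀ * sc496 t, ?_⟩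
  rw [tw496_mul_sc]
  exact hx_acts.ne_zero hg₀

end Fermat.Agent.LT.T7.H496
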