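import Mathlib
import Fermat.Agent.LT.T7.H193.KillSpec

/-!
# Row LT, tower T7, leaf T7.L2.1.N01 `NatBasicC` (helper496), OFF-MAIN

`natBasicC496 K : H193.NatBasicC K`, VERBATIM against `LT/T7/H193/KillSpec.lean`
(helper193@4a1c7c2bb, sha256 `2cb0a205…`), UNCONDITIONAL.

`φ♮ (g) = vol(D)⁻¹ ∫_D φ(g a(t)⁻¹) dt` is

* continuous: dominated convergence (`continuous_of_dominated`; `GL₂(𝔸_K)` is second countable
  by `T1Out.locComp`, `φ` is bounded, `vol D < ∞`);
* of compact support: `supp φ♮ ⊆ (tsupport φ) · a(closure D)`, the continuous image of a compact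
  set;
* bi-invariant: `a t` is central.
-/

set_option autoImplicit false

open IsDedekindDomain NumberField MeasureTheory
open scoped ComplexConjugate

noncomputable section

namespace Fermat.Agent.LT.T7.H496

open Fermat.Agent.LT.H556 Fermat.Agent.LT.H556.A0 Fermat.Agent.LT Fermat.Agent.LT.T7.H193

variable {K : Type} [Field K] [NumberField K]

/-- The inverse of a central element is central. -/
theorem inv_central496 {z : G K} (hz : ∀ g : G K, z * g = g * z) (g : G K) :
    g * z⁻¹ = z⁻¹ * g := by
  have h := hz (z⁻¹ * g * z⁻¹)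
  have h1 : z * (z⁻¹ * g * z⁻¹) = g * z⁻¹ := by group
  have h2 : z⁻¹ * g * z⁻¹ * z = z⁻¹ * g := by group
  rw [h1, h2] at h
  exact h

/-- The integrand of `φ♮` is continuous in `t`. -/
theorem continuous_natIntegrand496 {a : (InfinitePlace K → ℝ) → G K} (ha : Continuous a)
    {φ : G K → ℂ} (hφ : Continuous φ) (g : G K) :
    Continuous fun t : InfinitePlace K → ℝ => φ (g * (a t)⁻¹) :=
  hφ.comp (continuous_const.mul ha.inv)

/-- `φ♮` is continuous. -/
theorem continuous_nat496 [SecondCountableTopology (G K)]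
    {a : (InfinitePlace K → ℝ) → G K} {D : Set (InfinitePlace K → ℝ)}
    (ha : Continuous a) (hDb : Bornology.IsBounded D)
    {φ : G K → ℂ} (hφ : Continuous φ) (hφs : HasCompactSupport φ) :
    Continuous (nat193 a D φ) := by
  unfold nat193
  refine continuous_const.mul ?_
  obtain ⟨C, hC⟩ := hφ.bounded_above_of_compact_support hφs
  have hvol : volume D < ⊤ := hDb.measure_lt_top
  have : IsFiniteMeasure (volume.restrict D) := ⟨by rw [Measure.restrict_apply_univ]; exact hvol⟩
  refine continuous_of_dominated (bound := fun _ => C) (fun g => ?_) (fun g => ?_)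
    (integrable_const C) ?_
  · exact (continuous_natIntegrand496 ha hφ g).aestronglyMeasurable
  · exact Filter.Eventually.of_forall fun t => hC _
  · exact Filter.Eventually.of_forall fun t => hφ.comp (continuous_id.mul continuous_const)

/-- `φ♮` has compact support. -/
theorem hasCompactSupport_nat496 [T2Space (G K)]
    {a : (InfinitePlace K → ℝ) → G K} {D : Set (InfinitePlace K → ℝ)}
    (ha : Continuous a) (hDb : Bornology.IsBounded D)
    {φ : G K → ℂ} (hφs : HasCompactSupport φ) :
    HasCompactSupport (nat193 a D φ) := by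
  have hcl : IsCompact (closure D) := hDb.isCompact_closure
  have hprod : IsCompact ((tsupport φ) ×ˢ (closure D)) := hφs.prod hcl
  have hcont : Continuous fun p : G K × (InfinitePlace K → ℝ) => p.1 * a p.2 :=
    continuous_fst.mul (ha.comp continuous_snd)
  have hC := hprod.image hcont
  refine HasCompactSupport.intro hC fun g hg => ?_
  unfold nat193
  have hzero : ∀ t ∈ D, φ (g * (a t)⁻¹) = 0 := by
    intro t ht
    by_contra hne
    apply hg
    refine ⟨(g * (a t)⁻¹, t), ⟨subset_tsupport _ hne, subset_closure ht⟩, ?_⟩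
    simp
  rw [setIntegral_eq_zero_of_forall_eq_zero hzero, mul_zero]

/-- **T7.L2.1.N01 NAT-BASIC**, verbatim. -/
theorem natBasicC496 (K : Type) [Field K] [NumberField K] :
    Fermat.Agent.LT.T7.H193.NatBasicC K := by
  intro hT1 𝔑 r a D hD 𝔫 φ hφ
  have : T2Space (G K) := hT1.locComp.2.2.1
  have : SecondCountableTopology (G K) := hT1.locComp.2.2.2
  refine ⟨continuous_nat496 hD.cont hD.bdd hφ.cont hφ.supp,
    hasCompactSupport_nat496 hD.cont hD.bdd hφ.supp, ?_⟩
  have hc : ∀ (t : InfinitePlace K → ℝ) (g : G K), g * (a t)⁻¹ = (a t)⁻¹ * g :=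
    fun t g => inv_central496 (hD.central t) g
  refine ⟨fun u hu g => ?_, fun u hu g => ?_, fun w k hk g => ?_, fun w k hk g => ?_⟩
  · unfold nat193
    congr 1
    refine integral_congr_ae (Filter.Eventually.of_forall fun t => ?_)
    show φ (g * u * (a t)⁻¹) = φ (g * (a t)⁻¹)
    rw [mul_assoc, hc t u, ← mul_assoc]
    exact hφ.inv.level_right u hu _
  · unfold nat193
    congr 1
    refine integral_congr_ae (Filter.Eventually.of_forall fun t => ?_)
    show φ (u * g * (a t)⁻¹) = φ (g * (a t)⁻¹)
    rw [mul_assoc]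
    exact hφ.inv.level_left u hu _
  · have h1 : (T5.trivType k : ℂ)⁻¹ = 1 := by simp [T5.trivType]
    rw [h1, one_mul]
    unfold nat193
    congr 1
    refine integral_congr_ae (Filter.Eventually.of_forall fun t => ?_)
    show φ (g * k * (a t)⁻¹) = φ (g * (a t)⁻¹)
    rw [mul_assoc, hc t k, ← mul_assoc, hφ.inv.arch_right w k hk, h1, one_mul]
  · have h1 : (T5.trivType k : ℂ)⁻¹ = 1 := by simp [T5.trivType]
    rw [h1, one_mul]
    unfold nat193
    congr 1
    refine integral_congr_ae (Filter.Eventually.of_forall fun t => ?_)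
    show φ (k * g * (a t)⁻¹) = φ (g * (a t)⁻¹)
    rw [mul_assoc, hφ.inv.arch_left w k hk, h1, one_mul]

end Fermat.Agent.LT.T7.H496

end
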