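import Fermat.Agent.LT.T7.Spec

/-!
# Row LT, tower T7, leaf T7.01 `TwistC` (helper496), OFF-MAIN: basic vocabulary

The twist map `tw496 : g ↦ g · (det g)` (scalar matrix of the idele `det g`) is a continuous
group endomorphism of `GL₂(𝔸_K)`; components of adelic matrices as ring homomorphisms.
-/

set_option autoImplicit false

open IsDedekindDomain NumberField AutomorphicForm
open scoped MatrixGroups

noncomputable section

namespace Fermat.Agent.LT.T7.H496

open Fermat.Agent.LT.H556 Fermat.Agent.LT.H556.A0

variable {K : Type} [Field K] [NumberField K]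

/-! ## Evaluation maps -/

/-- Evaluation of an adele at a finite place. -/
def evF496 (v : HeightOneSpectrum (𝓞 K)) : Adl K →+* v.adicCompletion K :=
  (RestrictedProduct.evalRingHom _ v).comp (RingHom.snd _ _)

/-- Evaluation of an adele at an infinite place. -/
def evI496 (w : InfinitePlace K) : Adl K →+* w.Completion :=
  (Pi.evalRingHom _ w).comp (RingHom.fst _ _)

/-- Evaluation of an adele at an infinite place, read in `ℂ`. -/
def evC496 (w : InfinitePlace K) : Adl K →+* ℂ :=
  (InfinitePlace.Completion.extensionEmbedding w).comp (evI496 w)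

theorem evF496_apply (v : HeightOneSpectrum (𝓞 K)) (x : Adl K) : evF496 v x = x.2 v := rfl

theorem evI496_apply (w : InfinitePlace K) (x : Adl K) : evI496 w x = x.1 w := rfl

theorem evC496_apply (w : InfinitePlace K) (x : Adl K) :
    evC496 w x = InfinitePlace.Completion.extensionEmbedding w (evI496 w x) := rfl

/-- Two adeles with the same components are equal. -/
theorem adl_ext496 {x y : Adl K} (hI : ∀ w : InfinitePlace K, evI496 w x = evI496 w y)
    (hF : ∀ v : HeightOneSpectrum (𝓞 K), evF496 v x = evF496 v y) : x = y := by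
  refine Prod.ext (funext hI) ?_
  exact RestrictedProduct.ext _ _ hF

/-- The raw matrix of `g` at the infinite place `w` (entries in the completion). -/
def rawInf496 (w : InfinitePlace K) (g : G K) : Matrix (Fin 2) (Fin 2) w.Completion :=
  (g : Matrix (Fin 2) (Fin 2) (Adl K)).map (evI496 w)

theorem finComp_eq_map496 (v : HeightOneSpectrum (𝓞 K)) (g : G K) :
    finComp v g = (g : Matrix (Fin 2) (Fin 2) (Adl K)).map (evF496 v) := rfl

theorem infComp_eq_map496 (w : InfinitePlace K) (g : G K) :
    infComp w g = (g : Matrix (Fin 2) (Fin 2) (Adl K)).map (evC496 w) := rfl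

theorem infComp_eq_rawInf496 (w : InfinitePlace K) (g : G K) :
    infComp w g = (rawInf496 w g).map (InfinitePlace.Completion.extensionEmbedding w) := rfl

theorem trivAtInf_iff496 (w : InfinitePlace K) (g : G K) :
    TrivAtInf w g ↔ rawInf496 w g = 1 := by
  constructor
  · intro h
    exact Matrix.ext fun i j => h i j
  · intro h i j
    have := congrFun (congrFun h i) j
    exact this

theorem trivAtFin_iff496 (v : HeightOneSpectrum (𝓞 K)) (g : G K) :
    TrivAtFin v g ↔ finComp v g = 1 := Iff.rfl

/-- Extensionality for adelic matrices. -/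
theorem g_ext496 {g h : G K} (hI : ∀ w : InfinitePlace K, rawInf496 w g = rawInf496 w h)
    (hF : ∀ v : HeightOneSpectrum (𝓞 K), finComp v g = finComp v h) : g = h := by
  apply Units.ext
  refine Matrix.ext fun i j => ?_
  refine adl_ext496 (fun w => ?_) (fun v => ?_)
  · exact congrFun (congrFun (hI w) i) j
  · exact congrFun (congrFun (hF v) i) j

theorem finComp_mul496 (v : HeightOneSpectrum (𝓞 K)) (g h : G K) :
    finComp v (g * h) = finComp v g * finComp v h := by
  rw [finComp_eq_map496, finComp_eq_map496, finComp_eq_map496, Units.val_mul, Matrix.map_mul]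

theorem infComp_mul496 (w : InfinitePlace K) (g h : G K) :
    infComp w (g * h) = infComp w g * infComp w h := by
  rw [infComp_eq_map496, infComp_eq_map496, infComp_eq_map496, Units.val_mul, Matrix.map_mul]

theorem rawInf_mul496 (w : InfinitePlace K) (g h : G K) :
    rawInf496 w (g * h) = rawInf496 w g * rawInf496 w h := by
  unfold rawInf496
  rw [Units.val_mul, Matrix.map_mul]

theorem finComp_one496 (v : HeightOneSpectrum (𝓞 K)) : finComp v (1 : G K) = 1 := by
  rw [finComp_eq_map496, Units.val_one, Matrix.map_one _ (map_zero _) (map_one _)]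

theorem infComp_one496 (w : InfinitePlace K) : infComp w (1 : G K) = 1 := by
  rw [infComp_eq_map496, Units.val_one, Matrix.map_one _ (map_zero _) (map_one _)]

theorem rawInf_one496 (w : InfinitePlace K) : rawInf496 w (1 : G K) = 1 := by
  unfold rawInf496
  rw [Units.val_one, Matrix.map_one _ (map_zero _) (map_one _)]

theorem infComp_of_rawInf_one496 (w : InfinitePlace K) (g : G K) (h : rawInf496 w g = 1) :
    infComp w g = 1 := by
  rw [infComp_eq_rawInf496, h, Matrix.map_one _ (map_zero _) (map_one _)]

theorem finComp_det496 (v : HeightOneSpectrum (𝓞 K)) (g : G K) :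
    evF496 v ((Matrix.GeneralLinearGroup.det g : (Adl K)ˣ) : Adl K) = (finComp v g).det := by
  rw [finComp_eq_map496]
  exact RingHom.map_det (evF496 v) _

theorem infComp_det496 (w : InfinitePlace K) (g : G K) :
    evC496 w ((Matrix.GeneralLinearGroup.det g : (Adl K)ˣ) : Adl K) = (infComp w g).det := by
  rw [infComp_eq_map496]
  exact RingHom.map_det (evC496 w) _

theorem rawInf_det496 (w : InfinitePlace K) (g : G K) :
    evI496 w ((Matrix.GeneralLinearGroup.det g : (Adl K)ˣ) : Adl K) = (rawInf496 w g).det := by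
  unfold rawInf496
  exact RingHom.map_det (evI496 w) _

/-! ## Scalar matrices and the twist map -/

/-- The scalar matrix of an idele. -/
abbrev sc496 : (Adl K)ˣ →* G K := Matrix.GeneralLinearGroup.scalar (Fin 2)

theorem sc496_coe (x : (Adl K)ˣ) :
    ((sc496 x : G K) : Matrix (Fin 2) (Fin 2) (Adl K)) = Matrix.diagonal fun _ => (x : Adl K) :=
  rfl

theorem finComp_sc496 (v : HeightOneSpectrum (𝓞 K)) (x : (Adl K)ˣ) :
    finComp v (sc496 x) = Matrix.diagonal fun _ => evF496 v (x : Adl K) := by
  rw [finComp_eq_map496, sc496_coe, Matrix.diagonal_map (map_zero _)]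

theorem infComp_sc496 (w : InfinitePlace K) (x : (Adl K)ˣ) :
    infComp w (sc496 x) = Matrix.diagonal fun _ => evC496 w (x : Adl K) := by
  rw [infComp_eq_map496, sc496_coe, Matrix.diagonal_map (map_zero _)]

theorem rawInf_sc496 (w : InfinitePlace K) (x : (Adl K)ˣ) :
    rawInf496 w (sc496 x) = Matrix.diagonal fun _ => evI496 w (x : Adl K) := by
  unfold rawInf496
  rw [sc496_coe, Matrix.diagonal_map (map_zero _)]

theorem sc496_comm (x : (Adl K)ˣ) (g : G K) : sc496 x * g = g * sc496 x :=
  Matrix.GeneralLinearGroup.scalar_commute x g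

/-- The scalar matrix of the determinant. -/
def sd496 (g : G K) : G K := sc496 (Matrix.GeneralLinearGroup.det g)

theorem finComp_sd496 (v : HeightOneSpectrum (𝓞 K)) (g : G K) :
    finComp v (sd496 g) = Matrix.diagonal fun _ => (finComp v g).det := by
  unfold sd496
  rw [finComp_sc496, finComp_det496]

theorem infComp_sd496 (w : InfinitePlace K) (g : G K) :
    infComp w (sd496 g) = Matrix.diagonal fun _ => (infComp w g).det := by
  unfold sd496
  rw [infComp_sc496, infComp_det496]

theorem rawInf_sd496 (w : InfinitePlace K) (g : G K) :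
    rawInf496 w (sd496 g) = Matrix.diagonal fun _ => (rawInf496 w g).det := by
  unfold sd496
  rw [rawInf_sc496, rawInf_det496]

theorem sd496_mul (g h : G K) : sd496 (g * h) = sd496 g * sd496 h := by
  unfold sd496
  rw [map_mul, map_mul]

theorem sd496_inv (g : G K) : sd496 g⁻¹ = (sd496 g)⁻¹ := by
  unfold sd496
  rw [map_inv, map_inv]

theorem sd496_comm (g h : G K) : sd496 g * h = h * sd496 g := sc496_comm _ h

/-- The twist map `g ↦ g · (det g)`, a group endomorphism of `GL₂(𝔸_K)`. -/
def tw496 : G K →* G K where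
  toFun g := g * sd496 g
  map_one' := by
    unfold sd496
    simp
  map_mul' a b := by
    rw [sd496_mul]
    calc a * b * (sd496 a * sd496 b) = a * (b * sd496 a) * sd496 b := by
          simp only [mul_assoc]
      _ = a * (sd496 a * b) * sd496 b := by rw [sd496_comm a b]
      _ = _ := by simp only [mul_assoc]

theorem tw496_apply (g : G K) : tw496 g = g * sd496 g := rfl

theorem continuous_det496 :
    Continuous (Matrix.GeneralLinearGroup.det : G K → (Adl K)ˣ) := by
  have h0 : Continuous (Matrix.detMonoidHom : Matrix (Fin 2) (Fin 2) (Adl K) →* Adl K) := by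
    show Continuous fun x : Matrix (Fin 2) (Fin 2) (Adl K) => x.det
    exact continuous_id.matrix_det
  exact Continuous.units_map _ h0

theorem continuous_sc496 : Continuous (sc496 : (Adl K)ˣ → G K) := by
  have h0 : Continuous
      ((Matrix.scalar (Fin 2)).toMonoidHom : Adl K →* Matrix (Fin 2) (Fin 2) (Adl K)) := by
    show Continuous fun x : Adl K => Matrix.scalar (Fin 2) x
    exact Continuous.matrix_diagonal (continuous_pi fun _ => continuous_id)
  exact Continuous.units_map _ h0

theorem continuous_tw496 : Continuous (tw496 : G K → G K) := by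
  show Continuous fun g : G K => g * sc496 (Matrix.GeneralLinearGroup.det g)
  exact continuous_id.mul (continuous_sc496.comp continuous_det496)

/-! ## Components of the twist -/

theorem finComp_tw496 (v : HeightOneSpectrum (𝓞 K)) (g : G K) :
    finComp v (tw496 g) = finComp v g * Matrix.diagonal fun _ => (finComp v g).det := by
  rw [tw496_apply, finComp_mul496, finComp_sd496]

theorem infComp_tw496 (w : InfinitePlace K) (g : G K) :
    infComp w (tw496 g) = infComp w g * Matrix.diagonal fun _ => (infComp w g).det := by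
  rw [tw496_apply, infComp_mul496, infComp_sd496]

theorem rawInf_tw496 (w : InfinitePlace K) (g : G K) :
    rawInf496 w (tw496 g) = rawInf496 w g * Matrix.diagonal fun _ => (rawInf496 w g).det := by
  rw [tw496_apply, rawInf_mul496, rawInf_sd496]

theorem trivAtInf_sd496 {w : InfinitePlace K} {g : G K} (h : TrivAtInf w g) :
    TrivAtInf w (sd496 g) := by
  rw [trivAtInf_iff496] at h ⊢
  rw [rawInf_sd496, h, Matrix.det_one]
  exact Matrix.diagonal_one

theorem trivAtFin_sd496 {v : HeightOneSpectrum (𝓞 K)} {g : G K} (h : TrivAtFin v g) :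
    TrivAtFin v (sd496 g) := by
  rw [trivAtFin_iff496] at h ⊢
  rw [finComp_sd496, h, Matrix.det_one]
  exact Matrix.diagonal_one

theorem trivAtInf_mul496 {w : InfinitePlace K} {g h : G K} (hg : TrivAtInf w g)
    (hh : TrivAtInf w h) : TrivAtInf w (g * h) := by
  rw [trivAtInf_iff496] at hg hh ⊢
  rw [rawInf_mul496, hg, hh, one_mul]

theorem trivAtFin_mul496 {v : HeightOneSpectrum (𝓞 K)} {g h : G K} (hg : TrivAtFin v g)
    (hh : TrivAtFin v h) : TrivAtFin v (g * h) := by
  rw [trivAtFin_iff496] at hg hh ⊢
  rw [finComp_mul496, hg, hh, one_mul]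

theorem trivAtInf_tw496 {w : InfinitePlace K} {g : G K} (h : TrivAtInf w g) :
    TrivAtInf w (tw496 g) :=
  trivAtInf_mul496 h (trivAtInf_sd496 h)

theorem trivAtFin_tw496 {v : HeightOneSpectrum (𝓞 K)} {g : G K} (h : TrivAtFin v g) :
    TrivAtFin v (tw496 g) :=
  trivAtFin_mul496 h (trivAtFin_sd496 h)

theorem isLocalAtInf_sd496 {w : InfinitePlace K} {g : G K} (h : IsLocalAtInf w g) :
    IsLocalAtInf w (sd496 g) :=
  ⟨fun w' hw' => trivAtInf_sd496 (h.1 w' hw'), fun v => trivAtFin_sd496 (h.2 v)⟩

theorem isLocalAtInf_tw496 {w : InfinitePlace K} {g : G K} (h : IsLocalAtInf w g) :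
    IsLocalAtInf w (tw496 g) :=
  ⟨fun w' hw' => trivAtInf_tw496 (h.1 w' hw'), fun v => trivAtFin_tw496 (h.2 v)⟩

theorem isLocalAtFin_sd496 {v : HeightOneSpectrum (𝓞 K)} {g : G K} (h : IsLocalAtFin v g) :
    IsLocalAtFin v (sd496 g) :=
  ⟨fun w => trivAtInf_sd496 (h.1 w), fun v' hv' => trivAtFin_sd496 (h.2 v' hv')⟩

theorem isLocalAtFin_mul496 {v : HeightOneSpectrum (𝓞 K)} {g h : G K} (hg : IsLocalAtFin v g)
    (hh : IsLocalAtFin v h) : IsLocalAtFin v (g * h) :=
  ⟨fun w => trivAtInf_mul496 (hg.1 w) (hh.1 w),
    fun v' hv' => trivAtFin_mul496 (hg.2 v' hv') (hh.2 v' hv')⟩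

end Fermat.Agent.LT.T7.H496

end
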