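import Fermat.Agent.LT.T7.H496.TwistBasic

/-!
# Row LT, tower T7, leaf T7.01 `TwistC` (helper496), OFF-MAIN: the twisted form

`φ ∘ tw496` satisfies every field of `A0.IsSph0CuspFormFor` for the eigensystem
`(b_v a_v, b_v ^ 3)` of the same level, PROVIDED it is not identically zero
(`twistFields496`).  The non-vanishing is `TwistNonzero.lean`.
-/

set_option autoImplicit false

open IsDedekindDomain NumberField AutomorphicForm
open scoped MatrixGroups

noncomputable section

namespace Fermat.Agent.LT.T7.H496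

open Fermat.Agent.LT.H556 Fermat.Agent.LT.H556.A0

variable {K : Type} [Field K] [NumberField K]

/-- The twisted eigensystem `(b_v a_v, b_v ^ 3)`, same level. -/
def twPi496 (π : HeckeEigensystem K ℂ) : HeckeEigensystem K ℂ where
  level := π.level
  level_ne_bot := π.level_ne_bot
  a := fun v => π.b v * π.a v
  b := fun v => π.b v ^ 3

/-! ## Rational matrices -/

theorem tw496_rat (γ : GL (Fin 2) K) :
    tw496 (Matrix.GeneralLinearGroup.map (algebraMap K (Adl K)) γ)
      = Matrix.GeneralLinearGroup.map (algebraMap K (Adl K))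
          (γ * Matrix.GeneralLinearGroup.scalar (Fin 2) (Matrix.GeneralLinearGroup.det γ)) := by
  rw [map_mul, tw496_apply]
  congr 1
  unfold sd496
  rw [Matrix.GeneralLinearGroup.map_det]
  apply Units.ext
  refine Matrix.ext fun i j => ?_
  rw [Matrix.GeneralLinearGroup.map_apply]
  simp only [Matrix.GeneralLinearGroup.coe_scalar, Matrix.scalar_apply, Matrix.diagonal_apply]
  split_ifs
  · rfl
  · rw [map_zero]

/-! ## The level group -/

theorem idealClosure_zero496 (𝔫 : Ideal (𝓞 K)) (v : HeightOneSpectrum (𝓞 K)) :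
    (0 : v.adicCompletion K) ∈ idealClosure 𝔫 v := by
  apply subset_closure
  exact ⟨0, 𝔫.zero_mem, by simp⟩

theorem idealClosure_add496 (𝔫 : Ideal (𝓞 K)) (v : HeightOneSpectrum (𝓞 K))
    {a b : v.adicCompletion K} (ha : a ∈ idealClosure 𝔫 v) (hb : b ∈ idealClosure 𝔫 v) :
    a + b ∈ idealClosure 𝔫 v := by
  refine map_mem_closure₂ continuous_add ha hb ?_
  rintro _ ⟨x, hx, rfl⟩ _ ⟨y, hy, rfl⟩
  exact ⟨x + y, 𝔫.add_mem hx hy, by simp⟩

theorem idealClosure_mul496 (𝔫 : Ideal (𝓞 K)) (v : HeightOneSpectrum (𝓞 K))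
    {a b : v.adicCompletion K} (ha : a ∈ idealClosure 𝔫 v) (hb : b ∈ idealClosure 𝔫 v) :
    a * b ∈ idealClosure 𝔫 v := by
  refine map_mem_closure₂ continuous_mul ha hb ?_
  rintro _ ⟨x, hx, rfl⟩ _ ⟨y, hy, rfl⟩
  exact ⟨x * y, 𝔫.mul_mem_left x hy, by simp⟩

theorem idealClosure_neg496 (𝔫 : Ideal (𝓞 K)) (v : HeightOneSpectrum (𝓞 K))
    {a : v.adicCompletion K} (ha : a ∈ idealClosure 𝔫 v) : -a ∈ idealClosure 𝔫 v := by
  refine map_mem_closure continuous_neg ha ?_
  rintro _ ⟨x, hx, rfl⟩
  exact ⟨-x, 𝔫.neg_mem hx, by simp⟩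

/-- `det M - 1` for a `2 × 2` matrix. -/
theorem det_sub_one496 {R : Type*} [CommRing R] (M : Matrix (Fin 2) (Fin 2) R) :
    M.det - 1 = (M - 1) 0 0 + (M - 1) 1 1 + (M - 1) 0 0 * (M - 1) 1 1
      + -((M - 1) 0 1 * (M - 1) 1 0) := by
  rw [Matrix.det_fin_two]
  simp only [Matrix.sub_apply, Matrix.one_apply_eq, Matrix.one_apply_ne (show (0 : Fin 2) ≠ 1 by decide),
    Matrix.one_apply_ne (show (1 : Fin 2) ≠ 0 by decide), sub_zero]
  ring

theorem det_sub_one_mem496 (𝔫 : Ideal (𝓞 K)) (v : HeightOneSpectrum (𝓞 K))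
    (M : Matrix (Fin 2) (Fin 2) (v.adicCompletion K))
    (h : ∀ i j, (M - 1) i j ∈ idealClosure 𝔫 v) : M.det - 1 ∈ idealClosure 𝔫 v := by
  rw [det_sub_one496]
  exact idealClosure_add496 _ _
    (idealClosure_add496 _ _ (idealClosure_add496 _ _ (h 0 0) (h 1 1))
      (idealClosure_mul496 _ _ (h 0 0) (h 1 1)))
    (idealClosure_neg496 _ _ (idealClosure_mul496 _ _ (h 0 1) (h 1 0)))

theorem diagonal_sub_one_mem496 (𝔫 : Ideal (𝓞 K)) (v : HeightOneSpectrum (𝓞 K))
    (d : v.adicCompletion K) (h : d - 1 ∈ idealClosure 𝔫 v) (i j : Fin 2) :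
    ((Matrix.diagonal fun _ => d : Matrix (Fin 2) (Fin 2) (v.adicCompletion K)) - 1) i j
      ∈ idealClosure 𝔫 v := by
  rw [Matrix.sub_apply]
  by_cases hij : i = j
  · subst hij
    rw [Matrix.diagonal_apply_eq, Matrix.one_apply_eq]
    exact h
  · rw [Matrix.diagonal_apply_ne _ hij, Matrix.one_apply_ne hij, sub_zero]
    exact idealClosure_zero496 _ _

theorem inLevelGroup_sd496 (𝔫 : Ideal (𝓞 K)) {u : G K} (hu : InLevelGroup 𝔫 u) :
    InLevelGroup 𝔫 (sd496 u) := by
  refine ⟨fun w => trivAtInf_sd496 (hu.1 w), fun v i j => ⟨?_, ?_⟩⟩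
  · rw [finComp_sd496]
    exact diagonal_sub_one_mem496 _ _ _
      (det_sub_one_mem496 _ _ _ fun i j => (hu.2 v i j).1) i j
  · rw [← sd496_inv, finComp_sd496]
    exact diagonal_sub_one_mem496 _ _ _
      (det_sub_one_mem496 _ _ _ fun i j => (hu.2 v i j).2) i j

/-! ## Archimedean elements -/

theorem isArchPosScalar_tw496 {w : InfinitePlace K} {z : G K} (hz : IsArchPosScalar w z) :
    IsArchPosScalar w (tw496 z) := by
  obtain ⟨hloc, r, hr, hM⟩ := hz
  refine ⟨isLocalAtInf_tw496 hloc, r * (r * r), mul_pos hr (mul_pos hr hr), ?_⟩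
  rw [infComp_tw496, hM, Matrix.det_diagonal, Matrix.diagonal_mul_diagonal]
  congr 1
  funext i
  simp only [Finset.prod_const, Finset.card_univ, Fintype.card_fin]
  push_cast
  ring

theorem isArchCompact_tw496 {w : InfinitePlace K} {k : G K} (hk : IsArchCompact w k) :
    IsArchCompact w (tw496 k) := by
  obtain ⟨hloc, hU, hdet⟩ := hk
  have hd : (infComp w k).det * star (infComp w k).det = 1 := by
    rw [← Matrix.det_conjTranspose, ← Matrix.det_mul, hU, Matrix.det_one]
  refine ⟨isLocalAtInf_tw496 hloc, ?_, fun hw => ?_⟩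
  · rw [infComp_tw496, Matrix.conjTranspose_mul, Matrix.diagonal_conjTranspose]
    have hDD : (Matrix.diagonal fun _ => (infComp w k).det : Matrix (Fin 2) (Fin 2) ℂ)
        * Matrix.diagonal (star fun _ : Fin 2 => (infComp w k).det) = 1 := by
      rw [Matrix.diagonal_mul_diagonal]
      have : (fun i : Fin 2 => (infComp w k).det * star (fun _ : Fin 2 => (infComp w k).det) i)
          = fun _ => 1 := by
        funext i
        simpa using hd
      rw [this]
      exact Matrix.diagonal_one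
    calc infComp w k * (Matrix.diagonal fun _ => (infComp w k).det)
          * (Matrix.diagonal (star fun _ : Fin 2 => (infComp w k).det) * (infComp w k).conjTranspose)
        = infComp w k * ((Matrix.diagonal fun _ => (infComp w k).det)
          * Matrix.diagonal (star fun _ : Fin 2 => (infComp w k).det)) * (infComp w k).conjTranspose := by
          simp only [Matrix.mul_assoc]
      _ = 1 := by rw [hDD, Matrix.mul_one, hU]
  · rw [infComp_tw496, Matrix.det_mul, Matrix.det_diagonal, hdet hw]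
    simp

theorem det_rotZ496 (α : ℝ) : (rotZ α).det = 1 := by
  unfold rotZ
  rw [Matrix.det_fin_two_of, mul_zero, sub_zero, ← Complex.exp_add, add_neg_cancel,
    Complex.exp_zero]

theorem det_rotY496 (β : ℝ) : (rotY β).det = 1 := by
  unfold rotY
  rw [Matrix.det_fin_two_of]
  have h := Real.cos_sq_add_sin_sq (β / 2)
  have h2 : ((Real.cos (β / 2) : ℝ) : ℂ) * ((Real.cos (β / 2) : ℝ) : ℂ)
      - -((Real.sin (β / 2) : ℝ) : ℂ) * ((Real.sin (β / 2) : ℝ) : ℂ)
      = ((Real.cos (β / 2) ^ 2 + Real.sin (β / 2) ^ 2 : ℝ) : ℂ) := by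
    push_cast
    ring
  rw [h2, h, Complex.ofReal_one]

theorem det_torus496 (d : ℝ) : (torus d).det = 1 := by
  unfold torus
  rw [Matrix.det_fin_two_of, mul_zero, sub_zero, ← Complex.ofReal_mul, ← Real.exp_add,
    add_neg_cancel, Real.exp_zero, Complex.ofReal_one]

theorem infComp_tw_of_det_one496 {w : InfinitePlace K} {g : G K}
    (h : (infComp w g).det = 1) : infComp w (tw496 g) = infComp w g := by
  rw [infComp_tw496, h]
  have : (Matrix.diagonal fun _ => (1 : ℂ) : Matrix (Fin 2) (Fin 2) ℂ) = 1 := Matrix.diagonal_one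
  rw [this, Matrix.mul_one]

/-! ## Unipotent elements -/

theorem tw496_unip {n : G K} {x : Adl K}
    (h : (n : Matrix (Fin 2) (Fin 2) (Adl K)) = !![1, x; 0, 1]) : tw496 n = n := by
  have hdet : Matrix.GeneralLinearGroup.det n = 1 := by
    apply Units.ext
    show (n : Matrix (Fin 2) (Fin 2) (Adl K)).det = 1
    rw [h, Matrix.det_fin_two_of]
    ring
  rw [tw496_apply]
  unfold sd496
  rw [hdet, map_one, mul_one]

/-! ## Hecke elements -/

theorem isScalarUniformizerAt_sd496 {v : HeightOneSpectrum (𝓞 K)} {h : G K}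
    (hloc : IsLocalAtFin v h) (hval : Valued.v (finComp v h).det = WithZero.exp (-1 : ℤ)) :
    IsScalarUniformizerAt v (sd496 h) :=
  ⟨isLocalAtFin_sd496 hloc, (finComp v h).det, hval, finComp_sd496 v h⟩

theorem sd496_scalarUniformizer {v : HeightOneSpectrum (𝓞 K)} {z : G K}
    (hz : IsScalarUniformizerAt v z) : sd496 z = z * z := by
  obtain ⟨hloc, c, -, hc⟩ := hz
  refine g_ext496 (fun w => ?_) (fun v' => ?_)
  · have h1 := (trivAtInf_iff496 w _).1 (trivAtInf_sd496 (hloc.1 w))
    have h2 := (trivAtInf_iff496 w _).1 (trivAtInf_mul496 (hloc.1 w) (hloc.1 w))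
    rw [h1, h2]
  · by_cases hv : v' = v
    · subst hv
      rw [finComp_sd496, finComp_mul496, hc, Matrix.det_diagonal, Matrix.diagonal_mul_diagonal]
      congr 1
      funext i
      simp only [Finset.prod_const, Finset.card_univ, Fintype.card_fin]
      ring
    · have h1 := (trivAtFin_iff496 v' _).1 (trivAtFin_sd496 (hloc.2 v' hv))
      have h2 := (trivAtFin_iff496 v' _).1 (trivAtFin_mul496 (hloc.2 v' hv) (hloc.2 v' hv))
      rw [h1, h2]

/-! ## The twisted form -/

/-- **All fields of `A0.IsSph0CuspFormFor` for the twisted form**, given its non-vanishing. -/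
theorem twistFields496 (π : HeckeEigensystem K ℂ) (φ : G K → ℂ)
    (hφ : IsSph0CuspFormFor π φ) (hne : ∃ g : G K, φ (tw496 g) ≠ 0) :
    IsSph0CuspFormFor (twPi496 π) (fun g => φ (tw496 g)) where
  cont := hφ.cont.comp continuous_tw496
  bdd := by
    obtain ⟨C, hC⟩ := hφ.bdd
    exact ⟨C, fun g => hC _⟩
  ne_zero := hne
  left_inv := by
    intro γ g
    show φ (tw496 (_ * g)) = φ (tw496 g)
    rw [map_mul, tw496_rat]
    exact hφ.left_inv _ _
  level_inv := by
    intro u hu g
    show φ (tw496 (g * u)) = φ (tw496 g)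
    rw [map_mul, tw496_apply u, ← mul_assoc]
    rw [hφ.level_inv (sd496 u) (inLevelGroup_sd496 π.level hu), hφ.level_inv u hu]
  arch_scalar := by
    intro w z hz g
    show φ (tw496 (g * z)) = φ (tw496 g)
    rw [map_mul]
    exact hφ.arch_scalar w _ (isArchPosScalar_tw496 hz) _
  arch_compact := by
    intro w k hk g
    show φ (tw496 (g * k)) = φ (tw496 g)
    rw [map_mul]
    exact hφ.arch_compact w _ (isArchCompact_tw496 hk) _
  mean_complex := by
    intro w hw d hd Y hY g
    have hY' : ∀ α β : ℝ, IsLocalAtInf w (tw496 (Y α β)) ∧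
        infComp w (tw496 (Y α β)) = rotZ α * rotY β * torus d := by
      intro α β
      refine ⟨isLocalAtInf_tw496 (hY α β).1, ?_⟩
      rw [infComp_tw_of_det_one496, (hY α β).2]
      rw [(hY α β).2, Matrix.det_mul, Matrix.det_mul, det_rotZ496, det_rotY496, det_torus496]
      norm_num
    have := hφ.mean_complex w hw d hd (fun α β => tw496 (Y α β)) hY' (tw496 g)
    simpa only [map_mul] using this
  mean_real := by
    intro w hw t ht Y hY g
    have hY' : ∀ θ : ℝ, IsLocalAtInf w (tw496 (Y θ)) ∧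
        infComp w (tw496 (Y θ)) = rotY θ * torus t := by
      intro θ
      refine ⟨isLocalAtInf_tw496 (hY θ).1, ?_⟩
      rw [infComp_tw_of_det_one496, (hY θ).2]
      rw [(hY θ).2, Matrix.det_mul, det_rotY496, det_torus496]
      norm_num
    have := hφ.mean_real w hw t ht (fun θ => tw496 (Y θ)) hY' (tw496 g)
    simpa only [map_mul] using this
  cuspidal := by
    intro μ hμ D hD n hn g
    have := hφ.cuspidal μ hμ D hD n hn (tw496 g)
    have heq : (fun x : Adl K => φ (tw496 (n x * g))) = fun x => φ (n x * tw496 g) := by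
      funext x
      rw [map_mul, tw496_unip (hn x)]
    show ∫ x in D, φ (tw496 (n x * g)) ∂μ = 0
    rw [heq]
    exact this
  hecke := by
    intro v hv
    have hv' : ¬ v.asIdeal ∣ π.level := hv
    obtain ⟨hT, hS⟩ := hφ.hecke v hv'
    refine ⟨fun H hH g => ?_, fun z hz g => ?_⟩
    · show ∑ h ∈ H, φ (tw496 (g * h)) = _ * (π.b v * π.a v) * φ (tw496 g)
      have h1 : ∀ h ∈ H, φ (tw496 (g * h)) = π.b v * φ (tw496 g * h) := by
        intro h hh
        obtain ⟨hloc, -, hval⟩ := hH.2.1 h hh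
        rw [map_mul, tw496_apply h, ← mul_assoc]
        exact hS _ (isScalarUniformizerAt_sd496 hloc hval) _
      rw [Finset.sum_congr rfl h1, ← Finset.mul_sum, hT H hH (tw496 g)]
      ring
    · show φ (tw496 (g * z)) = π.b v ^ 3 * φ (tw496 g)
      rw [map_mul, tw496_apply z, sd496_scalarUniformizer hz, ← mul_assoc, ← mul_assoc,
        hS z hz, hS z hz, hS z hz]
      ring

end Fermat.Agent.LT.T7.H496

end
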